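import Fermat.Agent.ClassField.S55.Bridge.Modules
import Fermat.Agent.ClassField.S55.Bridge.Local
import Fermat.Agent.ClassField.Idele.Level
import Fermat.Agent.ClassField.Idele.PlaceIdeles
import Fermat.Agent.ClassField.S55.ClassModule

/-!
# S55 assembly: the finite level attached to a Galois number field

For a finite normal `K`: the group `Γ / Gal(ℚ̄/K)`, its decomposition subgroups, the classes of
`K` modulo units away from `S`, and the local units with their maps into the classes.
-/

set_option autoImplicit false

noncomputable section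

open scoped Fermat.Agent.ClassField

namespace Fermat.Agent.ClassField.S55

open Idele IntermediateField

local notation "Qb" => AlgebraicClosure ℚ
local notation "Γ" => (AlgebraicClosure ℚ ≃ₐ[ℚ] AlgebraicClosure ℚ)

section Descend

variable {G X : Type*} [Group G] [AddCommGroup X] [DistribMulAction G X] (U : Subgroup G) [U.Normal]

/-- An action trivial on `U` descends to `G ⧸ U`. -/
@[reducible] def descendAction (h : ∀ u ∈ U, ∀ x : X, u • x = x) : DistribMulAction (G ⧸ U) X :=
  DistribMulAction.compHom X
    (QuotientGroup.lift U (DistribMulAction.toAddMonoidEnd G X)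
      fun u hu => AddMonoidHom.ext fun x => h u hu x)

end Descend

variable (K : IntermediateField ℚ Qb) [Normal ℚ K]

instance normal_fixingSubgroup : K.fixingSubgroup.Normal :=
  ⟨fun τ hτ σ => (IntermediateField.mem_fixingSubgroup_iff _ _).mpr fun x hx => by
    have hx' : σ.symm x ∈ K :=
      (IntermediateField.normal_iff_forall_map_le'.mp ‹Normal ℚ K› σ.symm) ⟨x, hx, rfl⟩
    show σ (τ (σ.symm x)) = x
    rw [(IntermediateField.mem_fixingSubgroup_iff _ _).mp hτ _ hx', AlgEquiv.apply_symm_apply]⟩

/-- The Galois group of the level, as a quotient of the absolute Galois group. -/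
abbrev LevelGroup : Type := Γ ⧸ K.fixingSubgroup

/-- The projection onto the level group. -/
abbrev toLevel : Γ →* LevelGroup K := QuotientGroup.mk' K.fixingSubgroup

instance finite_levelGroup [FiniteDimensional ℚ K] : Finite (LevelGroup K) :=
  haveI : K.fixingSubgroup.FiniteIndex := ⟨fixingSubgroup_index_ne_zero K⟩
  K.fixingSubgroup.finite_quotient_of_finiteIndex

instance fintype_levelGroup [FiniteDimensional ℚ K] : Fintype (LevelGroup K) := Fintype.ofFinite _

/-! ### classes of `K` -/

variable (S : Finset Nat.Primes)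

/-- The classes of `K` modulo units away from `S`, additively. -/
abbrev ClassMod : Type := Additive ↥(classesOf (S : Set Nat.Primes) K)

theorem smul_mem_classesOf (σ : Γ) {c : IdeleClass (S : Set Nat.Primes)}
    (hc : c ∈ classesOf (S : Set Nat.Primes) K) : σ • c ∈ classesOf (S : Set Nat.Primes) K := by
  obtain ⟨f, hf, rfl⟩ := hc
  exact ⟨σ • f, smul_mem_invariants_of_normal K σ hf, rfl⟩

theorem smul_eq_of_mem_fixingSubgroup {σ : Γ} (hσ : σ ∈ K.fixingSubgroup)
    {c : IdeleClass (S : Set Nat.Primes)} (hc : c ∈ classesOf (S : Set Nat.Primes) K) :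
    σ • c = c := by
  obtain ⟨f, hf, rfl⟩ := hc
  rw [smul_classMap, hf σ hσ]

instance : DistribMulAction Γ (ClassMod K S) where
  smul σ x := Additive.ofMul ⟨σ • (x.toMul : IdeleClass (S : Set Nat.Primes)),
    smul_mem_classesOf K S σ x.toMul.2⟩
  one_smul x := congrArg Additive.ofMul (Subtype.ext (one_smul Γ _))
  mul_smul σ τ x := congrArg Additive.ofMul (Subtype.ext (mul_smul σ τ _))
  smul_zero σ := congrArg Additive.ofMul (Subtype.ext (smul_one σ))
  smul_add σ x y := congrArg Additive.ofMul (Subtype.ext (smul_mul' σ _ _))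

theorem classMod_smul_eq_of_mem {σ : Γ} (hσ : σ ∈ K.fixingSubgroup) (x : ClassMod K S) :
    σ • x = x :=
  congrArg Additive.ofMul (Subtype.ext (smul_eq_of_mem_fixingSubgroup K S hσ x.toMul.2))

instance classModAction : DistribMulAction (LevelGroup K) (ClassMod K S) :=
  descendAction K.fixingSubgroup fun _ hσ x => classMod_smul_eq_of_mem K S hσ x

theorem toLevel_smul_classMod (σ : Γ) (x : ClassMod K S) : toLevel K σ • x = σ • x := rfl

/-- The class of an idele of `K`. -/
def classOf (f : IdeleGroup) (hf : f ∈ idelesOf K) : ClassMod K S :=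
  Additive.ofMul ⟨classMap (S : Set Nat.Primes) f, ⟨f, hf, rfl⟩⟩

/-! ### decomposition groups and local units -/

variable (q : Nat.Primes)

/-- The decomposition subgroup at the base embedding. -/
def decGroup : Subgroup (LevelGroup K) := ((toLevel K).comp (locHom q)).range

/-- Local units of `K` at the base embedding: fixed by the kernel of the decomposition map. -/
def locUnits : AddSubgroup (LUnits q) where
  carrier := {y | ∀ τ : LocalGal q, locHom q τ ∈ K.fixingSubgroup → τ • y = y}
  add_mem' ha hb τ hτ := by rw [smul_add, ha τ hτ, hb τ hτ]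
  zero_mem' τ _ := smul_zero τ
  neg_mem' ha τ hτ := by rw [smul_neg, ha τ hτ]

variable {K q}

theorem smul_mem_locUnits (τ : LocalGal q) {y : LUnits q} (hy : y ∈ locUnits K q) :
    τ • y ∈ locUnits K q := by
  intro δ hδ
  have h : locHom q (τ⁻¹ * δ * τ) ∈ K.fixingSubgroup := by
    rw [map_mul, map_mul, map_inv]
    simpa using (normal_fixingSubgroup K).conj_mem _ hδ (locHom q τ)⁻¹
  calc δ • τ • y = τ • (τ⁻¹ * δ * τ) • y := by rw [← mul_smul, ← mul_smul]; congr 1; group
    _ = τ • y := by rw [hy _ h]

theorem locUnits_smul_eq {τ τ' : LocalGal q} (h : toLevel K (locHom q τ) = toLevel K (locHom q τ'))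
    {y : LUnits q} (hy : y ∈ locUnits K q) : τ • y = τ' • y := by
  have h' : locHom q (τ'⁻¹ * τ) ∈ K.fixingSubgroup := by
    rw [map_mul, map_inv]
    exact QuotientGroup.eq.mp h.symm
  conv_lhs => rw [← mul_inv_cancel_left τ' τ, mul_smul, hy _ h']

/-- A lift of an element of the decomposition subgroup. -/
def liftDec (g : decGroup K q) : LocalGal q := g.2.choose

theorem liftDec_spec (g : decGroup K q) : toLevel K (locHom q (liftDec g)) = g := g.2.choose_spec

instance : DistribMulAction (decGroup K q) (locUnits K q) where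
  smul g y := ⟨liftDec g • (y : LUnits q), smul_mem_locUnits _ y.2⟩
  one_smul y := Subtype.ext ((locUnits_smul_eq (by rw [liftDec_spec, map_one, map_one]; rfl) y.2).trans
    (one_smul (LocalGal q) (y : LUnits q)))
  mul_smul g h y := Subtype.ext ((locUnits_smul_eq (by
      rw [liftDec_spec, map_mul, map_mul, liftDec_spec, liftDec_spec]; rfl) y.2).trans
    (mul_smul (liftDec g) (liftDec h) (y : LUnits q)))
  smul_zero g := Subtype.ext (smul_zero (liftDec g))
  smul_add g y z := Subtype.ext (smul_add (liftDec g) (y : LUnits q) (z : LUnits q))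

theorem coe_smul_locUnits {g : decGroup K q} {τ : LocalGal q}
    (h : toLevel K (locHom q τ) = g) (y : locUnits K q) :
    ((g • y : locUnits K q) : LUnits q) = τ • (y : LUnits q) :=
  locUnits_smul_eq ((liftDec_spec g).trans h.symm) y.2

/-- Fixed by `Gal(ℚ̄_q / local field)` means lying in the local field. -/
theorem mem_localField_of_mem_locUnits {y : LUnits q} (hy : y ∈ locUnits K q) :
    ((y.toMul : (PadicAlgCl (q : ℕ))ˣ) : PadicAlgCl (q : ℕ)) ∈ localField (emb0 q) K := by
  rw [← InfiniteGalois.fixedField_fixingSubgroup (localField (emb0 q) K)]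
  rintro ⟨τ, hτ⟩
  have hU : locHom q τ ∈ K.fixingSubgroup :=
    (IntermediateField.mem_fixingSubgroup_iff _ _).mpr fun x hx =>
      (emb0 q).toRingHom.injective (by
        show emb0 q (locHom q τ x) = emb0 q x
        rw [emb0_locHom]
        exact localComp_eqOn_of_fix hτ x hx)
  exact congrArg (fun z : LUnits q => ((z.toMul : (PadicAlgCl (q : ℕ))ˣ) : PadicAlgCl (q : ℕ)))
    (hy τ hU)

theorem localComp_emb0 {τ : LocalGal q} {σ : Γ} :
    (∀ x ∈ K, τ (emb0 q x) = globalComp (emb0 q) σ x) ↔
      toLevel K (locHom q τ) = toLevel K σ := by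
  rw [QuotientGroup.mk'_apply, QuotientGroup.mk'_apply, QuotientGroup.eq]
  constructor
  · intro h
    refine (IntermediateField.mem_fixingSubgroup_iff _ _).mpr fun x hx => ?_
    show (locHom q τ).symm (σ x) = x
    rw [AlgEquiv.symm_apply_eq]
    refine (emb0 q).toRingHom.injective ?_
    show emb0 q (σ x) = emb0 q (locHom q τ x)
    rw [emb0_locHom]
    exact (h x hx).symm
  · intro h x hx
    have := (IntermediateField.mem_fixingSubgroup_iff _ _).mp h x hx
    change (locHom q τ).symm (σ x) = x at this
    rw [AlgEquiv.symm_apply_eq] at this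
    rw [globalComp_apply, this, emb0_locHom]

variable [FiniteDimensional ℚ K] (K q)

/-- The idele with component `y` at the base embedding. -/
def locIdele (y : locUnits K q) : IdeleGroup :=
  single (emb0 q) K (y : LUnits q).toMul (mem_localField_of_mem_locUnits y.2)

theorem locIdele_mem (y : locUnits K q) : locIdele K q y ∈ idelesOf K :=
  single_mem_idelesOf _ _ _ _

theorem locIdele_apply_of_eq {σ : Γ} {τ : LocalGal q} (y : locUnits K q)
    (h : toLevel K (locHom q τ) = toLevel K σ) :
    Additive.ofMul ((locIdele K q y : IdeleGroup).1 q (globalComp (emb0 q) σ)) =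
      τ • (y : LUnits q) :=
  Additive.toMul.injective (Units.ext
    (singleFun_of_eqOn (emb0 q) (mem_localField_of_mem_locUnits y.2) _ (τ := τ)
      (localComp_emb0.mpr h)))

theorem locIdele_apply_of_notMem {σ : Γ} (y : locUnits K q) (h : toLevel K σ ∉ decGroup K q) :
    (locIdele K q y : IdeleGroup).1 q (globalComp (emb0 q) σ) = 1 :=
  singleFun_of_forall_ne (emb0 q) _ fun τ => by
    by_contra hne
    push Not at hne
    exact h ⟨τ, localComp_emb0.mp hne⟩

theorem locIdele_apply_of_ne {q' : Nat.Primes} (ι : Emb q') (y : locUnits K q) (h : q ≠ q') :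
    (locIdele K q y : IdeleGroup).1 q' ι = 1 :=
  single_apply_of_ne _ _ _ _ _ h

theorem locIdele_mul (y z : locUnits K q) :
    locIdele K q (y + z) = locIdele K q y * locIdele K q z := by
  classical
  refine Subtype.ext (Raw.ext fun q' ι => ?_)
  show _ = (locIdele K q y : IdeleGroup).1 q' ι * (locIdele K q z : IdeleGroup).1 q' ι
  rcases eq_or_ne q q' with rfl | hne
  · obtain ⟨σ, rfl⟩ := globalComp_surjective q ι
    by_cases h : toLevel K σ ∈ decGroup K q
    · obtain ⟨τ, hτ⟩ := h
      refine Additive.ofMul.injective ?_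
      rw [ofMul_mul, locIdele_apply_of_eq K q _ hτ, locIdele_apply_of_eq K q _ hτ,
        locIdele_apply_of_eq K q _ hτ, AddSubgroup.coe_add, smul_add]
    · simp [locIdele_apply_of_notMem K q _ h]
  · simp [locIdele_apply_of_ne K q ι _ hne]

theorem smul_locIdele (g : decGroup K q) (σ : Γ) (hσ : toLevel K σ = g) (y : locUnits K q) :
    σ • locIdele K q y = locIdele K q (g • y) := by
  classical
  refine Subtype.ext (Raw.ext fun q' ι => ?_)
  show (locIdele K q y : IdeleGroup).1 q' (globalComp ι σ) = _
  rcases eq_or_ne q q' with rfl | hne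
  · obtain ⟨s, rfl⟩ := globalComp_surjective q ι
    rw [← globalComp_mul]
    by_cases h : toLevel K s ∈ decGroup K q
    · obtain ⟨τ, hτ⟩ := h
      obtain ⟨δ, hδ⟩ := g.2
      have hτδ : toLevel K (locHom q (τ * δ)) = toLevel K (s * σ) := by
        rw [map_mul, map_mul, map_mul, hσ]
        exact congrArg₂ (· * ·) hτ hδ
      refine Additive.ofMul.injective ?_
      rw [locIdele_apply_of_eq K q _ hτδ, locIdele_apply_of_eq K q _ hτ,
        coe_smul_locUnits hδ, ← mul_smul]
    · rw [locIdele_apply_of_notMem K q _ h, locIdele_apply_of_notMem K q]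
      intro h'
      rw [map_mul, hσ] at h'
      exact h ((Subgroup.mul_mem_cancel_right _ g.2).mp h')
  · simp [locIdele_apply_of_ne K q _ _ hne]

/-- The local units at `q` into the classes. -/
def locIncl : locUnits K q →+[decGroup K q] ClassMod K S where
  toFun y := classOf K S (locIdele K q y) (locIdele_mem K q y)
  map_smul' g y := by
    obtain ⟨σ, hσ⟩ := QuotientGroup.mk'_surjective K.fixingSubgroup (g : LevelGroup K)
    show classOf K S (locIdele K q (g • y)) _ =
      (g : LevelGroup K) • classOf K S (locIdele K q y) _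
    rw [← hσ, toLevel_smul_classMod]
    refine congrArg Additive.ofMul (Subtype.ext ?_)
    show classMap (S : Set Nat.Primes) (locIdele K q (g • y)) =
      σ • classMap (S : Set Nat.Primes) (locIdele K q y)
    rw [smul_classMap, smul_locIdele K q g σ hσ]
  map_zero' := by
    refine congrArg Additive.ofMul (Subtype.ext ?_)
    show classMap (S : Set Nat.Primes) (locIdele K q 0) = 1
    have h := locIdele_mul K q 0 0
    rw [add_zero] at h
    rw [left_eq_mul.mp h, map_one]
  map_add' y z := by
    refine congrArg Additive.ofMul (Subtype.ext ?_)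
    show classMap (S : Set Nat.Primes) (locIdele K q (y + z)) =
      classMap (S : Set Nat.Primes) (locIdele K q y) * classMap (S : Set Nat.Primes) (locIdele K q z)
    rw [locIdele_mul, map_mul]

end Fermat.Agent.ClassField.S55
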