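import Fermat.Agent.ClassField.Idele.UnitsModule
import Fermat.Agent.ClassField.Idele.LocalHerbrand
import Fermat.Agent.ClassField.Idele.SecondIneq.IdealIdele
import Fermat.Agent.ClassField.S55.ClassModuleTransfer
import Fermat.Agent.ClassField.S55.Final.Level
import Fermat.Agent.ClassField.Idele.Unramified

/-!
# S55: from all classes of a level to the classes modulo units away from `S`
-/

set_option autoImplicit false

noncomputable section

open IntermediateField

namespace Fermat.Agent.ClassField.S55

open Idele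

local notation "Qb" => AlgebraicClosure ℚ
local notation "Γ" => (AlgebraicClosure ℚ ≃ₐ[ℚ] AlgebraicClosure ℚ)

/-- The unit form of Hilbert 90 from its form for ideles supported at one prime. -/
theorem unitH90 (p : ℕ) [Fact p.Prime] : Idele.UnitH90 p := by
  intro k L hkL ℓ hl s hsk hsL f hf hunit hN
  classical
  have := hkL.finite
  let c := SecondIneq.cut ({ℓ} : Set Nat.Primes) f
  have hc : ∀ ι : Emb ℓ, (c : Raw) ℓ ι = (f : Raw) ℓ ι := fun ι =>
    SecondIneq.cut_of_mem f rfl ι
  have hc' : ∀ ℓ' : Nat.Primes, ℓ' ≠ ℓ → ∀ ι, (c : Raw) ℓ' ι = 1 := fun ℓ' h ι =>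
    SecondIneq.cut_of_notMem (ℓ := ℓ') f h ι
  have hN' : relNorm k L c = 1 := Subtype.ext (Raw.ext fun ℓ' ι => by
    rcases eq_or_ne ℓ' ℓ with rfl | h
    · show _ = (1 : (PadicAlgCl (ℓ' : ℕ))ˣ)
      rw [← hN ι, SecondIneq.relNorm_component, SecondIneq.relNorm_component]
      exact finprod_congr fun q => hc _
    · rw [SecondIneq.relNorm_component]
      exact finprod_eq_one_of_forall_eq_one fun q => hc' ℓ' h _)
  obtain ⟨g, hg, hgu, hge⟩ := exists_smul_eq_mul_local_unit hkL hl s hsk hsL (f := c)
    ⟨SecondIneq.cut_mem_idelesOf _ hf, hc'⟩ (fun ι => by rw [hc]; exact hunit ι) hN'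
  refine ⟨g, hg.1, hgu, fun ι => ?_⟩
  rw [hge, mul_inv_cancel_right]
  exact hc ι

variable (S : Finset Nat.Primes)

theorem trivialClasses_univ_le :
    trivialClasses (Set.univ : Set Nat.Primes) ≤ trivialClasses (S : Set Nat.Primes) := by
  rw [trivialClasses, unitsAway_univ, sup_bot_eq]
  exact le_sup_left

/-- Classes modulo units away from `S`. -/
def forgetAway : IdeleClass Set.univ →* IdeleClass (S : Set Nat.Primes) :=
  QuotientGroup.map _ _ (MonoidHom.id IdeleGroup) fun _ h => trivialClasses_univ_le S h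

@[simp] theorem forgetAway_classMap (f : IdeleGroup) :
    forgetAway S (classMap Set.univ f) = classMap (S : Set Nat.Primes) f := rfl

theorem forgetAway_smul (σ : Γ) (c : IdeleClass Set.univ) :
    forgetAway S (σ • c) = σ • forgetAway S c := by
  obtain ⟨f, rfl⟩ := QuotientGroup.mk'_surjective _ c
  rfl

variable (K : IntermediateField ℚ Qb) [Normal ℚ K] [FiniteDimensional ℚ K]

omit [Normal ℚ K] in
theorem forgetAway_mem {c : Cls} (hc : c ∈ LevelMod K.fixingSubgroup) :
    forgetAway S c.toMul ∈ classesOf (S : Set Nat.Primes) K := by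
  obtain ⟨f, hf, he⟩ := (mem_levelMod_iff.1 hc)
  exact ⟨f, hf, by rw [← he]; rfl⟩

/-- All classes of a level onto the classes modulo units away from `S`. -/
def levelProj : LevelMod K.fixingSubgroup →+ ClassMod K S where
  toFun c := Additive.ofMul ⟨forgetAway S (c : Cls).toMul, forgetAway_mem S K c.2⟩
  map_zero' := congrArg Additive.ofMul (Subtype.ext (map_one (forgetAway S)))
  map_add' _ _ := congrArg Additive.ofMul (Subtype.ext (map_mul (forgetAway S) _ _))

theorem levelProj_smul (g : LevelGroup K) (c : LevelMod K.fixingSubgroup) :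
    levelProj S K (g • c) = g • levelProj S K c := by
  obtain ⟨σ, rfl⟩ := QuotientGroup.mk'_surjective K.fixingSubgroup g
  refine Eq.trans ?_ (toLevel_smul_classMod K S σ (levelProj S K c)).symm
  refine congrArg Additive.ofMul (Subtype.ext ?_)
  show forgetAway S (((σ : Γ ⧸ K.fixingSubgroup) • c : LevelMod K.fixingSubgroup) : Cls).toMul = _
  rw [Devissage.coe_mk_smul, toMul_smul_cls, forgetAway_smul]
  rfl

omit [Normal ℚ K] in
theorem levelProj_surjective : Function.Surjective (levelProj S K) := by
  intro x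
  obtain ⟨f, hf, he⟩ := x.toMul.2
  refine ⟨⟨Additive.ofMul (classMap Set.univ f), mem_levelMod_iff.2 ⟨f, hf, rfl⟩⟩,
    congrArg Additive.ofMul (Subtype.ext ?_)⟩
  exact he

/-- Units away from `S` of the level into all its classes. -/
def unitsIncl : Devissage.fixedPts (UMod (S : Set Nat.Primes)) K.fixingSubgroup →+
    LevelMod K.fixingSubgroup where
  toFun x := ⟨Additive.ofMul (classMap Set.univ (unitIdele (x : UMod (S : Set Nat.Primes)))),
    fun σ hσ => congrArg Additive.ofMul (by
      show σ • classMap Set.univ _ = _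
      rw [smul_classMap, ← unitIdele_smul, x.2 σ hσ])⟩
  map_zero' := Subtype.ext (congrArg Additive.ofMul (map_one (classMap Set.univ)))
  map_add' x y := Subtype.ext (congrArg Additive.ofMul (map_mul (classMap Set.univ) _ _))

omit [FiniteDimensional ℚ K] in
theorem unitsIncl_smul (g : LevelGroup K)
    (x : Devissage.fixedPts (UMod (S : Set Nat.Primes)) K.fixingSubgroup) :
    unitsIncl S K (g • x) = g • unitsIncl S K x := by
  obtain ⟨σ, rfl⟩ := QuotientGroup.mk'_surjective K.fixingSubgroup g
  refine Subtype.ext (Additive.toMul.injective ?_)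
  show classMap Set.univ (unitIdele (((σ : Γ ⧸ K.fixingSubgroup) • x :
    Devissage.fixedPts (UMod (S : Set Nat.Primes)) K.fixingSubgroup) : UMod (S : Set Nat.Primes))) =
    (((σ : Γ ⧸ K.fixingSubgroup) • unitsIncl S K x : LevelMod K.fixingSubgroup) : Cls).toMul
  rw [Devissage.coe_mk_smul, Devissage.coe_mk_smul, unitIdele_smul, toMul_smul_cls]
  rfl

variable {S}

omit [Normal ℚ K] [FiniteDimensional ℚ K] in
/-- A principal idele which is a unit away from a non-empty `S` is trivial. -/
theorem eq_one_of_principal_mem_unitsAway (hS : S.Nonempty) {x : Qbˣ}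
    (h : principal x ∈ unitsAway (S : Set Nat.Primes)) : x = 1 := by
  obtain ⟨ℓ, hℓ⟩ := hS
  obtain ⟨ι⟩ := nonempty_emb ℓ
  refine Units.ext (ι.toRingHom.injective ?_)
  exact (congrArg Units.val (h.1 ℓ hℓ ι)).trans (map_one ι).symm

omit [Normal ℚ K] [FiniteDimensional ℚ K] in
theorem unitsIncl_injective (hS : S.Nonempty) : Function.Injective (unitsIncl S K) := by
  rw [injective_iff_map_eq_zero]
  intro x hx
  have h : classMap Set.univ (unitIdele (x : UMod (S : Set Nat.Primes))) = 1 :=
    congrArg (fun c : LevelMod K.fixingSubgroup => (c : Cls).toMul) hx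
  obtain ⟨y, hy⟩ := classMap_univ_eq_one_iff.1 h
  have hy1 : y = 1 := eq_one_of_principal_mem_unitsAway hS
    (hy ▸ (x : UMod (S : Set Nat.Primes)).toMul.2)
  refine Subtype.ext (unitIdele_injective ?_)
  rw [← hy, hy1, map_one]
  rfl

omit [Normal ℚ K] in
theorem levelProj_eq_zero_iff (hS : S.Nonempty) (c : LevelMod K.fixingSubgroup) :
    levelProj S K c = 0 ↔ ∃ x, unitsIncl S K x = c := by
  constructor
  · intro h
    obtain ⟨f, hf, he⟩ := mem_levelMod_iff.1 c.2
    have h1 : classMap (S : Set Nat.Primes) f = 1 := by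
      have := congrArg (fun z : ClassMod K S => (z.toMul : IdeleClass (S : Set Nat.Primes))) h
      rw [← forgetAway_classMap, he]
      exact this
    rw [QuotientGroup.mk'_apply, QuotientGroup.eq_one_iff, trivialClasses, Subgroup.mem_sup] at h1
    obtain ⟨_, ⟨y, rfl⟩, u, hu, rfl⟩ := h1
    have hyK : principal y ∈ idelesOf K := fun σ hσ => by
      have h2 := hf σ hσ
      rw [smul_mul', smul_principal] at h2
      have h3 : principal (σ • y) * (principal y)⁻¹ ∈ unitsAway (S : Set Nat.Primes) := by
        have : principal (σ • y) * (principal y)⁻¹ = u * (σ • u)⁻¹ := by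
          rw [mul_inv_eq_iff_eq_mul, eq_comm, mul_right_comm, mul_inv_eq_iff_eq_mul, mul_comm, ← h2,
            mul_comm]
        rw [this]
        exact mul_mem hu (inv_mem (smul_mem_unitsAway σ hu))
      rw [← map_inv, ← map_mul] at h3
      rw [smul_principal, mul_inv_eq_one.1 (eq_one_of_principal_mem_unitsAway hS h3)]
    have huK : u ∈ idelesOf K := by
      simpa using mul_mem (inv_mem hyK) hf
    refine ⟨⟨Additive.ofMul (⟨u, hu⟩ : ↥(unitsAway (S : Set Nat.Primes))),
      fun σ hσ => unitIdele_injective (huK σ hσ)⟩, Subtype.ext (Additive.toMul.injective ?_)⟩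
    show classMap Set.univ u = (c : Cls).toMul
    rw [← he, map_mul, classMap_principal, one_mul]
  · rintro ⟨x, rfl⟩
    refine congrArg Additive.ofMul (Subtype.ext ?_)
    show classMap (S : Set Nat.Primes) (unitIdele (x : UMod (S : Set Nat.Primes))) = 1
    rw [QuotientGroup.mk'_apply, QuotientGroup.eq_one_iff]
    exact Subgroup.mem_sup_right (x : UMod (S : Set Nat.Primes)).toMul.2

/-- A fundamental class of all classes of the level gives one modulo units away from `S`. -/
theorem isPClassModule_classMod {p : ℕ} [Fact p.Prime] (hp : p ≠ 2) (hS : S.Nonempty)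
    (hK : K.IsUnramifiedOutside S) {ζ : Qb} (hζ : IsPrimitiveRoot ζ p) (hζK : ζ ∈ K)
    {u : LevelGroup K × LevelGroup K → LevelMod K.fixingSubgroup}
    (hu : IsPClassModule p (LevelGroup K) (LevelMod K.fixingSubgroup) u) :
    IsPClassModule p (LevelGroup K) (ClassMod K S) (levelProj S K ∘ u) :=
  hu.quotient (levelProj S K) (levelProj_smul S K) (unitsIncl S K) (unitsIncl_smul S K)
    (levelProj_eq_zero_iff K hS) (unitsIncl_injective K hS) (levelProj_surjective S K)
    (fun P hP => stepHyp hp hζ hζK P hP)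
    (fun P _ => unitsAway_stepAcyclic (unitH90 p)
      (fun _ hℓ => isUnramifiedAt_of_isUnramifiedOutside hK hℓ) P)

end Fermat.Agent.ClassField.S55
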