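import Fermat.Agent.ClassField.LocalFundamentalClass
import Fermat.Agent.ClassField.S55.ClassModuleTransfer
import Fermat.Agent.ClassField.S55.Final.Level

/-!
# S55: the local class formation at the base embedding of a level
-/

set_option autoImplicit false

noncomputable section

open IntermediateField
open scoped Fermat.Agent.ClassField

namespace Fermat.Agent.ClassField.S55

open Idele

section Transport

variable {p : ℕ} {G G' C C' : Type*} [Group G] [AddCommGroup C] [DistribMulAction G C]
  [Group G'] [AddCommGroup C'] [DistribMulAction G' C']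

/-- Class modules are transported by isomorphisms. -/
theorem IsPClassModule.of_equiv {u : G × G → C} (hu : IsPClassModule p G C u) (e : G' ≃* G)
    (f : C' ≃+ C) (hf : ∀ (g : G') (x : C'), f (g • x) = e g • f x) :
    IsPClassModule p G' C' fun x => f.symm (u (e x.1, e x.2)) := by
  let E : ∀ P : Subgroup G', P ≃* P.map e.toMonoidHom := fun P =>
    P.equivMapOfInjective e.toMonoidHom e.injective
  have hE : ∀ (P : Subgroup G') (g : P), ((E P g : P.map e.toMonoidHom) : G) = e (g : G') :=
    fun P g => rfl
  have hP : ∀ P : Subgroup G', IsPGroup p P → IsPGroup p (P.map e.toMonoidHom) := fun P h =>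
    h.of_equiv (E P)
  refine ⟨fun g h j => f.injective ?_, fun P h c hc => ?_, fun P h c hc => ?_,
    fun P h n b hb => ?_⟩
  · simp only [map_add, map_sub, hf, AddEquiv.apply_symm_apply, map_mul, map_zero]
    exact hu.cocycle _ _ _
  · obtain ⟨x, hx⟩ := hu.h1 _ (hP P h) (fun g => f (c ((E P).symm g))) (by
      funext ⟨g, g'⟩
      obtain ⟨g, rfl⟩ := (E P).surjective g
      obtain ⟨g', rfl⟩ := (E P).surjective g'
      have e1 := congrArg f (congrFun hc (g, g'))
      simp only [d1, Pi.zero_apply, map_add, map_sub, map_zero] at e1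
      simp only [d1, Pi.zero_apply, ← map_mul (E P), MulEquiv.symm_apply_apply]
      rw [← e1]
      exact congrArg (· - f (c (g * g')) + f (c g)) (hf (g : G') _).symm)
    refine ⟨f.symm x, funext fun g => f.injective ?_⟩
    have e1 := congrFun hx (E P g)
    simp only [d0, MulEquiv.symm_apply_apply] at e1
    simp only [d0, map_sub, AddEquiv.apply_symm_apply]
    rw [← e1]
    exact congrArg (· - x) ((hf (g : G') _).trans (by rw [AddEquiv.apply_symm_apply, ← hE]; rfl))
  · obtain ⟨n, b, hb⟩ := hu.h2_gen _ (hP P h) (fun x => f (c ((E P).symm x.1, (E P).symm x.2))) (by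
      intro g g' j
      obtain ⟨g, rfl⟩ := (E P).surjective g
      obtain ⟨g', rfl⟩ := (E P).surjective g'
      obtain ⟨j, rfl⟩ := (E P).surjective j
      have e1 := congrArg f (hc g g' j)
      simp only [map_add, map_sub, map_zero] at e1
      simp only [← map_mul (E P), MulEquiv.symm_apply_apply]
      rw [← e1]
      exact congrArg (· - f (c (g * g', j)) + f (c (g, g' * j)) - f (c (g, g')))
        (hf (g : G') _).symm)
    refine ⟨n, fun g => f.symm (b (E P g)), funext fun x => f.injective ?_⟩
    have e1 := congrFun hb (E P x.1, E P x.2)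
    simp only [MulEquiv.symm_apply_apply] at e1
    rw [e1]
    simp only [map_add, map_zsmul, AddEquiv.apply_symm_apply, d1, map_sub, ← hE,
      ← map_mul (E P)]
    congr 3
    exact ((hf (x.1 : G') _).trans (by rw [AddEquiv.apply_symm_apply, ← hE]; rfl)).symm
  · have hcard : Nat.card P = Nat.card (P.map e.toMonoidHom) := Nat.card_congr (E P).toEquiv
    rw [hcard]
    refine hu.h2_order _ (hP P h) n (fun g => f (b ((E P).symm g))) (funext fun ⟨g, g'⟩ => ?_)
    obtain ⟨g, rfl⟩ := (E P).surjective g
    obtain ⟨g', rfl⟩ := (E P).surjective g'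
    have e1 := congrArg f (congrFun hb (g, g'))
    simp only [map_zsmul, AddEquiv.apply_symm_apply, d1, map_add, map_sub] at e1
    simp only [d1, ← map_mul (E P), MulEquiv.symm_apply_apply, hE]
    rw [e1]
    exact congrArg (· - f (b (g * g')) + f (b g)) (hf (g : G') _)

end Transport

local notation "Qb" => AlgebraicClosure ℚ
local notation "Γ" => (AlgebraicClosure ℚ ≃ₐ[ℚ] AlgebraicClosure ℚ)

variable (p : ℕ) [Fact p.Prime]

omit [Fact p.Prime] in
/-- A class of full order which generates on `p`-subgroups gives a class module. -/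
theorem exists_isPClassModule_of_class {G C : Type} [Group G] [AddCommGroup C]
    [DistribMulAction G C] (z : CochainH2.H2 G C)
    (hord : ∀ (H : Subgroup G) (k : ℤ), k • LocalFundamental.resH2 H z = 0 → (Nat.card H : ℤ) ∣ k)
    (hgen : ∀ P : Subgroup G, IsPGroup p P → ∀ w : CochainH2.H2 P C,
      ∃ k : ℤ, w = k • LocalFundamental.resH2 P z)
    (h1 : ∀ P : Subgroup G, Devissage.H1Vanishes P C) :
    ∃ u, IsPClassModule p G C u := by
  obtain ⟨u, rfl⟩ := CochainH2.mk_surjective z
  refine ⟨(u : G × G → C), ⟨mem_Z2_iff_cocycle.1 u.2,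
    fun P _ c hc => exists_d0_of_h1Vanishes (h1 P) hc, fun P hP c hc => ?_,
    fun P _ n b hb => ?_⟩⟩
  · obtain ⟨k, hk⟩ := hgen P hP (CochainH2.mk P _ ⟨c, mem_Z2_iff_cocycle.2 hc⟩)
    rw [LocalFundamental.resH2, CochainH2.map_mk, ← map_zsmul, CochainH2.mk_eq_mk] at hk
    obtain ⟨b, hb⟩ := hk
    refine ⟨k, b, funext fun x => ?_⟩
    have e := congrFun hb x
    rw [d1_eq_cochain, Pi.sub_apply, eq_sub_iff_add_eq, add_comm] at e
    exact e.symm
  · refine hord P n ?_
    rw [LocalFundamental.resH2, CochainH2.map_mk, ← map_zsmul, CochainH2.mk_eq_zero]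
    refine ⟨b, ?_⟩
    rw [d1_eq_cochain, ← hb]
    rfl

/-- Units of a Galois extension of `ℚ_ℓ` form a class module. -/
theorem exists_isPClassModule_gal {ℓ : Nat.Primes}
    (E : IntermediateField ℚ_[(ℓ : ℕ)] (PadicAlgCl (ℓ : ℕ))) [FiniteDimensional ℚ_[(ℓ : ℕ)] E]
    [IsGalois ℚ_[(ℓ : ℕ)] E] :
    ∃ u, IsPClassModule p Gal(E/ℚ_[(ℓ : ℕ)]) (Additive (↥E)ˣ) u := by
  obtain ⟨z, hord, hgen⟩ := LocalFundamental.exists_fundamental E
  refine exists_isPClassModule_of_class p z hord (fun P hP => hgen p P hP) fun P c hc => ?_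
  have : Fintype P := Fintype.ofFinite P
  exact CyclicH2.exists_eq_smul_sub (L := ↥E) (H := P) c hc

variable (K : IntermediateField ℚ Qb) [Normal ℚ K] [FiniteDimensional ℚ K] (q : Nat.Primes)

omit [FiniteDimensional ℚ K] in
theorem normal_localField_emb0 : Normal ℚ_[(q : ℕ)] (localField (emb0 q) K) := by
  refine IntermediateField.normal_iff_forall_map_le'.2 fun τ => ?_
  rw [localField, IntermediateField.adjoin_map, IntermediateField.adjoin_le_iff]
  rintro _ ⟨_, ⟨x, hx, rfl⟩, rfl⟩
  refine IntermediateField.subset_adjoin _ _ ⟨locHom q τ x,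
    (IntermediateField.normal_iff_forall_map_le'.mp ‹Normal ℚ K› (locHom q τ)) ⟨x, hx, rfl⟩, ?_⟩
  exact emb0_locHom q τ x

omit [Normal ℚ K] [FiniteDimensional ℚ K] in
theorem locHom_mem_fixingSubgroup_iff (τ : LocalGal q) :
    locHom q τ ∈ K.fixingSubgroup ↔ τ ∈ (localField (emb0 q) K).fixingSubgroup := by
  constructor
  · intro h
    exact fix_of_localComp_eqOn fun x hx => by
      rw [← emb0_locHom, (IntermediateField.mem_fixingSubgroup_iff _ _).mp h x hx]
  · intro h
    exact (IntermediateField.mem_fixingSubgroup_iff _ _).mpr fun x hx =>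
      (emb0 q).toRingHom.injective ((emb0_locHom q τ x).trans (localComp_eqOn_of_fix h x hx))

/-- The local units at the base embedding as units of the local field. -/
def locUnitsEquiv : locUnits K q ≃+ Additive (↥(localField (emb0 q) K))ˣ where
  toFun y := Additive.ofMul (Units.mk0
    ⟨_, mem_localField_of_mem_locUnits y.2⟩
    fun h => (y : LUnits q).toMul.ne_zero (congrArg Subtype.val h))
  invFun x := ⟨Additive.ofMul (Units.map (localField (emb0 q) K).val.toRingHom.toMonoidHom x.toMul),
    fun τ hτ => Additive.toMul.injective (Units.ext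
      ((IntermediateField.mem_fixingSubgroup_iff _ _).mp
        ((locHom_mem_fixingSubgroup_iff K q τ).1 hτ) _ x.toMul.1.2))⟩
  left_inv _ := Subtype.ext (Additive.toMul.injective (Units.ext rfl))
  right_inv _ := Additive.toMul.injective (Units.ext rfl)
  map_add' _ _ := Additive.toMul.injective (Units.ext rfl)

/-- The local units at the base embedding form a class module of the decomposition group. -/
theorem exists_isPClassModule_locUnits :
    ∃ uv, IsPClassModule p (decGroup K q) (locUnits K q) uv := by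
  have := normal_localField_emb0 K q
  have : IsGalois ℚ_[(q : ℕ)] (localField (emb0 q) K) := ⟨⟩
  obtain ⟨u, hu⟩ := exists_isPClassModule_gal p (localField (emb0 q) K)
  let φ : LocalGal q →* Gal((localField (emb0 q) K)/ℚ_[(q : ℕ)]) :=
    AlgEquiv.restrictNormalHom (localField (emb0 q) K)
  have hφ : Function.Surjective φ :=
    AlgEquiv.restrictNormalHom_surjective (F := ℚ_[(q : ℕ)]) (K₁ := localField (emb0 q) K)
      (PadicAlgCl (q : ℕ))
  let ψ : LocalGal q →* decGroup K q := ((toLevel K).comp (locHom q)).rangeRestrict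
  have hψ : Function.Surjective ψ := MonoidHom.rangeRestrict_surjective _
  have hker : ψ.ker = φ.ker := by
    ext τ
    rw [MonoidHom.mem_ker, IntermediateField.restrictNormalHom_ker,
      ← locHom_mem_fixingSubgroup_iff K q τ, Subtype.ext_iff]
    exact QuotientGroup.eq_one_iff _
  let e : decGroup K q ≃* Gal((localField (emb0 q) K)/ℚ_[(q : ℕ)]) :=
    (QuotientGroup.quotientKerEquivOfSurjective ψ hψ).symm.trans
      ((QuotientGroup.quotientMulEquivOfEq hker).trans
        (QuotientGroup.quotientKerEquivOfSurjective φ hφ))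
  have he : ∀ τ, e (ψ τ) = φ τ := fun τ => by
    have h : (QuotientGroup.quotientKerEquivOfSurjective ψ hψ).symm (ψ τ) =
        (τ : LocalGal q ⧸ ψ.ker) :=
      (QuotientGroup.quotientKerEquivOfSurjective ψ hψ).symm_apply_eq.2 rfl
    rw [MulEquiv.trans_apply, MulEquiv.trans_apply, h]
    rfl
  refine ⟨_, hu.of_equiv e (locUnitsEquiv K q) fun g y => ?_⟩
  obtain ⟨τ, rfl⟩ := hψ g
  rw [he]
  refine Additive.toMul.injective (Units.ext (Subtype.ext ?_))
  have h1 := coe_smul_locUnits (τ := τ) (g := ψ τ) rfl y
  refine (congrArg (fun z : LUnits q => ((z.toMul : (PadicAlgCl (q : ℕ))ˣ) : PadicAlgCl (q : ℕ)))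
    h1).trans ?_
  exact (AlgEquiv.restrictNormal_commutes τ (localField (emb0 q) K)
    ⟨_, mem_localField_of_mem_locUnits y.2⟩).symm

end Fermat.Agent.ClassField.S55
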