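import Fermat.Agent.ClassField.S55.Final.FormationWrapper
import Fermat.Agent.ClassField.S55.ClassModuleRestrict
import Fermat.Agent.ClassField.Idele.Fundamental.Class
import Fermat.Agent.ClassField.Idele.Fundamental.LocalGlobal

/-!
# S55: the class formations of a number field at `p`

The `p`-part of the global fundamental class restricts, at every prime, to the image of a local
fundamental class: on a subgroup of order `p` of a decomposition group some local unit has a class
which is not a norm, so the local class maps to a generator.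
-/

set_option autoImplicit false

noncomputable section

open IntermediateField
open scoped Fermat.Agent.ClassField

namespace Fermat.Agent.ClassField.S55

open Idele
open Devissage (powSum powSum_apply)

local notation "Qb" => AlgebraicClosure ℚ
local notation "Γ" => (AlgebraicClosure ℚ ≃ₐ[ℚ] AlgebraicClosure ℚ)

/-- Partial sums of powers in a subgroup. -/
theorem powSum_coe {G A : Type*} [Group G] [AddCommGroup A] [DistribMulAction G A] (H : Subgroup G)
    (h : H) (n : ℕ) (x : A) : powSum h n x = powSum (h : G) n x := by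
  rw [powSum_apply, powSum_apply]
  refine Finset.sum_congr rfl fun i _ => ?_
  rw [Subgroup.smul_def, SubmonoidClass.coe_pow]

variable {p : ℕ} [Fact p.Prime] (hp : p ≠ 2) (K : IntermediateField ℚ Qb) [Normal ℚ K]
  [FiniteDimensional ℚ K] (v : Nat.Primes) {ζ : Qb} (hζ : IsPrimitiveRoot ζ p) (hζK : ζ ∈ K)

set_option maxHeartbeats 1000000 in
include hp hζ hζK in
/-- At an element of order `p` the image of the local class is not divisible by `p`. -/
theorem not_dvd_of_eq_add_d1 {uG : decGroup K v × decGroup K v → LevelMod K.fixingSubgroup}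
    (hG : IsPClassModule p (decGroup K v) (LevelMod K.fixingSubgroup) uG)
    {uv : decGroup K v × decGroup K v → locUnits K v}
    (huv : IsPClassModule p (decGroup K v) (locUnits K v) uv)
    (P : Subgroup (decGroup K v)) (σ : P) (hσ : orderOf σ = p) {l : ℤ}
    {b0 : P → LevelMod K.fixingSubgroup}
    (h : (fun x : P × P => locCls K v (uv ((x.1 : decGroup K v), (x.2 : decGroup K v)))) =
      fun x => l • uG ((x.1 : decGroup K v), (x.2 : decGroup K v)) + d1 b0 x) :
    ¬ (p : ℤ) ∣ l := by
  rintro ⟨l', rfl⟩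
  have hp' := (Fact.out : p.Prime)
  set s : decGroup K v := (σ : decGroup K v) with hs
  have hord : orderOf s = p := (Subgroup.orderOf_coe σ).trans hσ
  obtain ⟨y, hy, hne⟩ := exists_locCls_not_norm hp K v hζ hζK s hord
  obtain ⟨n, bb, hn⟩ := CyclicNorms.exists_eq_smul_sum_add huv (isOfFinOrder_of_finite s)
    (IsPGroup.of_card (n := 1) (by rw [Nat.card_zpowers, hord, pow_one])) (hord ▸ hp'.one_lt) hy
  rw [hord] at hn
  set A := ∑ i ∈ Finset.range p, uG (s ^ i, s) with hA
  have hAfix : s • A = A := by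
    have h0 := CyclicH2.smul_inv s (⟨uG, mem_Z2_iff_cocycle.2 hG.cocycle⟩ :
      CochainH2.Z2 (decGroup K v) (LevelMod K.fixingSubgroup))
    rwa [CyclicH2.inv_apply, hord] at h0
  -- the invariant of `h` at `σ`
  have hsum : locCls K v (∑ i ∈ Finset.range p, uv (s ^ i, s)) =
      ((p : ℤ) * l') • A + powSum s p (b0 σ) := by
    have e : ∀ i : ℕ, locCls K v (uv (s ^ i, s)) =
        ((p : ℤ) * l') • uG (s ^ i, s) + d1 b0 (σ ^ i, σ) := fun i => by
      have h' := congrFun h (σ ^ i, σ)
      simpa only [SubmonoidClass.coe_pow] using h'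
    have e2 := CyclicH2.inv_d1 σ b0
    rw [CyclicH2.inv_apply, CyclicH2.normSum_apply, hσ] at e2
    rw [map_sum, Finset.sum_congr rfl fun i _ => e i, Finset.sum_add_distrib, ← Finset.smul_sum,
      hs, ← powSum_coe P σ, powSum_apply]
    exact congrArg₂ (· + ·) rfl e2
  refine hne (n • (l' • A + b0 σ) + locCls K v bb) ?_
  rw [← powSum_coe (decGroup K v) s]
  simp only [map_add, map_zsmul]
  rw [CyclicNorms.powSum_of_smul_eq hAfix, hn, map_add, map_zsmul, hsum, locCls_powSum,
    ← powSum_coe (decGroup K v) s, ← natCast_zsmul A p, ← mul_smul l' (p : ℤ) A, mul_comm l']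

/-- If no subgroup of order `p` sees the image of `uv` divisible by `p`, then a class `uG` killed
by a power of `p` is the image of a multiple, prime to `p`, of `uv`. -/
theorem exists_scalar_image {G : Type*} [Group G] [Finite G] {A C : Type*} [AddCommGroup A]
    [DistribMulAction G A] [AddCommGroup C] [DistribMulAction G C] (ι : A →+ C)
    (hι : ∀ (g : G) (a : A), ι (g • a) = g • ι a)
    {uG : G × G → C} (hG : IsPClassModule p G C uG) {uv : G × G → A}
    (huv : IsPClassModule p G A uv)
    (hdiv : ∀ (P : Subgroup G) (σ : P), orderOf σ = p → ∀ (l : ℤ) (b0 : P → C),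
      (fun x : P × P => ι (uv ((x.1 : G), (x.2 : G)))) =
        (fun x => l • uG ((x.1 : G), (x.2 : G)) + d1 b0 x) → ¬ (p : ℤ) ∣ l)
    (hkill : ∃ n : ℕ, p ^ n • CochainH2.mk G C ⟨uG, mem_Z2_iff_cocycle.2 hG.cocycle⟩ = 0) :
    ∃ μ : ℤ, ¬ (p : ℤ) ∣ μ ∧ ∃ w : G → C, ∀ x : G × G, uG x = ι (μ • uv x) + d1 w x := by
  classical
  have hp' := (Fact.out : p.Prime)
  obtain ⟨n, hn⟩ := hkill
  set zA := CochainH2.mk (G) C
    ⟨uG, mem_Z2_iff_cocycle.2 hG.cocycle⟩ with hzA
  set fB : CochainH2.Z2 (G) C :=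
    ⟨fun x => ι (uv x), fun g h j => by
      have e := congrArg (ι) (mem_Z2_iff_cocycle.2 huv.cocycle g h j)
      rw [map_add, map_add, hι] at e
      exact e⟩ with hfB
  set zB := CochainH2.mk (G) C fB with hzB
  let P₀ : Sylow p (G) := default
  set P : Subgroup (G) := (P₀ : Subgroup (G)) with hP
  have hPp : IsPGroup p P := P₀.isPGroup'
  obtain ⟨k, hk⟩ := hPp.exists_card_eq
  -- the multiplier on the Sylow subgroup
  obtain ⟨l, b0, hlb⟩ := hG.h2_gen P hPp
    (fun x => ι (uv ((x.1 : G), (x.2 : G))))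
    ((mem_Z2_iff_cocycle (G := P) (C := C)
      (f := fun x : P × P => ι (uv ((x.1 : G), (x.2 : G))))).1
      fun g h j => fB.2 (g : G) h j)
  have hres : CochainH2.restriction P zB = l • CochainH2.restriction P zA := by
    rw [hzA, hzB, CochainH2.restriction, CochainH2.map_mk, CochainH2.map_mk, ← map_zsmul,
      CochainH2.mk_eq_mk]
    refine ⟨b0, funext fun x => ?_⟩
    rw [d1_eq_cochain, Pi.sub_apply]
    exact eq_sub_of_add_eq ((add_comm _ _).trans (congrFun hlb x).symm)
  obtain ⟨l₁, hl₁, hres'⟩ : ∃ l₁ : ℤ, ¬ (p : ℤ) ∣ l₁ ∧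
      CochainH2.restriction P (zA - l₁ • zB) = 0 := by
    rcases Nat.eq_zero_or_pos k with h0 | h0
    · refine ⟨1, fun h => hp'.one_lt.not_ge (Nat.le_of_dvd one_pos (by exact_mod_cast h)), ?_⟩
      have h := natCard_smul_eq_zero (CochainH2.restriction P (zA - (1 : ℤ) • zB))
      rwa [hk, h0, pow_zero, one_nsmul] at h
    · obtain ⟨σ, hσ⟩ := exists_prime_orderOf_dvd_card' p
        (show p ∣ Nat.card P by rw [hk]; exact dvd_pow_self p h0.ne')
      have hl := hdiv P σ hσ l b0 hlb
      obtain ⟨l₁, c, hlc⟩ := ((Nat.prime_iff_prime_int.1 hp').coprime_iff_not_dvd.2 hl).pow_left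
        (m := k) |>.symm
      refine ⟨l₁, fun hd => ?_, ?_⟩
      · have h1 : (p : ℤ) ∣ l₁ * l + c * (p : ℤ) ^ k :=
          dvd_add (hd.mul_right _) ((dvd_pow_self _ h0.ne').mul_left _)
        rw [hlc] at h1
        exact hp'.one_lt.not_ge (Nat.le_of_dvd one_pos (by exact_mod_cast h1))
      · have h := natCard_smul_eq_zero (CochainH2.restriction P zA)
        rw [hk, ← natCast_zsmul, Nat.cast_pow] at h
        rw [map_sub, map_zsmul, hres, ← mul_smul, show l₁ * l = 1 - c * (p : ℤ) ^ k by
          linear_combination hlc, sub_smul, one_smul, mul_smul, h, smul_zero, sub_zero, sub_self]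
  -- remove the index
  have hidx := CochainH2.index_smul_eq_zero P hres'
  set m := P.index with hm_def
  have hm : ¬ p ∣ m := P₀.not_dvd_index
  obtain ⟨m', c, hmc⟩ :=
    (Nat.isCoprime_iff_coprime.2 (((hp'.coprime_iff_not_dvd).2 hm).pow_left (n + 1)).symm :
      IsCoprime (m : ℤ) ((p ^ (n + 1) : ℕ) : ℤ))
  set μ : ℤ := m' * m * l₁ with hμdef
  have hμ : ¬ (p : ℤ) ∣ μ := fun hd => by
    rcases (Nat.prime_iff_prime_int.1 hp').dvd_or_dvd hd with h | h
    · have h1 : (p : ℤ) ∣ m' * (m : ℤ) + c * ((p ^ (n + 1) : ℕ) : ℤ) :=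
        dvd_add h (Dvd.dvd.mul_left (by exact_mod_cast dvd_pow_self p (Nat.succ_ne_zero n)) _)
      rw [hmc] at h1
      exact hp'.one_lt.not_ge (Nat.le_of_dvd one_pos (by exact_mod_cast h1))
    · exact hl₁ h
  have hA : ((p ^ (n + 1) : ℕ) : ℤ) • zA = 0 := by
    rw [natCast_zsmul, pow_succ', mul_nsmul', hn, smul_zero]
  have hAB : zA = μ • zB := by
    have h1 : ((m : ℤ)) • zA = ((m : ℤ) * l₁) • zB := by
      rw [← natCast_zsmul, zsmul_sub, sub_eq_zero] at hidx
      rw [hidx, mul_smul]
    calc zA = (m' * (m : ℤ) + c * ((p ^ (n + 1) : ℕ) : ℤ)) • zA := by rw [hmc, one_smul]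
      _ = m' • ((m : ℤ) • zA) + c • (((p ^ (n + 1) : ℕ) : ℤ) • zA) := by
          rw [add_zsmul, ← mul_zsmul', ← mul_zsmul', mul_comm (m : ℤ) m', mul_comm _ c]
      _ = μ • zB := by rw [hA, smul_zero, add_zero, h1, ← mul_smul, hμdef, mul_assoc]
  rw [hzA, hzB, ← map_zsmul, CochainH2.mk_eq_mk] at hAB
  obtain ⟨w, hw⟩ := hAB
  refine ⟨μ, hμ, w, fun x => ?_⟩
  have e := congrFun hw x
  rw [d1_eq_cochain, Pi.sub_apply] at e
  rw [e, map_zsmul]
  exact (add_sub_cancel _ _).symm


include hp hζ hζK in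
/-- The restriction of the global class is the image of a local class. -/
theorem exists_local_class {uG : decGroup K v × decGroup K v → LevelMod K.fixingSubgroup}
    (hG : IsPClassModule p (decGroup K v) (LevelMod K.fixingSubgroup) uG)
    (hkill : ∃ n : ℕ, p ^ n •
      CochainH2.mk (decGroup K v) (LevelMod K.fixingSubgroup)
        ⟨uG, mem_Z2_iff_cocycle.2 hG.cocycle⟩ = 0) :
    ∃ uv : decGroup K v × decGroup K v → locUnits K v,
      IsPClassModule p (decGroup K v) (locUnits K v) uv ∧
        ∃ w : decGroup K v → LevelMod K.fixingSubgroup, ∀ x : decGroup K v × decGroup K v,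
          uG x = locCls K v (uv x) + d1 w x := by
  obtain ⟨uv, huv⟩ := exists_isPClassModule_locUnits p K v
  obtain ⟨μ, hμ, w, hw⟩ := exists_scalar_image (locCls K v) (fun g a => locCls_smul K v g a) hG huv
    (fun P σ hσ l b0 h => not_dvd_of_eq_add_d1 hp K v hζ hζK hG huv P σ hσ h) hkill
  exact ⟨fun x => μ • uv x, huv.zsmul hμ, w, hw⟩

include hp hζ hζK in
/-- **The class formations of a number field containing `ζ_p`.** -/
theorem hasUnivClassFormation : HasUnivClassFormation K p := by
  obtain ⟨z, ⟨n, hn⟩, hP⟩ := exists_fundamental_univ hp K hζ hζK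
  obtain ⟨u, rfl⟩ := CochainH2.mk_surjective z
  have hb := fun (P : Subgroup (LevelGroup K)) (hP' : IsPGroup p P) => h1_h2_levelMod (L := K) hp hζ hζK P hP'
  have hu : IsPClassModule p (LevelGroup K) (LevelMod K.fixingSubgroup) u :=
    isPClassModule_of_bounds _ u.2 hb fun P hP' j b hjb => (hP P hP').1 j (by
      rw [CochainH2.restriction, CochainH2.map_mk, ← map_zsmul, CochainH2.mk_eq_zero]
      refine ⟨b, ?_⟩
      rw [d1_eq_cochain, ← hjb]
      rfl)
  refine ⟨(u : LevelGroup K × LevelGroup K → LevelMod K.fixingSubgroup), hu, fun v => ?_⟩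
  have hG := hu.restrict (decGroup K v) hb
  obtain ⟨uv, huv, w, hw⟩ := exists_local_class hp K v hζ hζK hG ⟨n, by
    have h := congrArg (CochainH2.restriction (decGroup K v)) hn
    rw [map_nsmul, map_zero, CochainH2.restriction, CochainH2.map_mk] at h
    exact h⟩
  exact ⟨uv, huv, w, hw⟩

end Fermat.Agent.ClassField.S55
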