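import Fermat.Agent.ClassField.S55.Final.Kappa
import Fermat.Agent.ClassField.S55.FiniteDuality

/-!
# S55 assembly: `RC^Γ / (r PC^Γ + π RJ^Γ)` at a finite level

For a level `K` fixing the presentation, the target of the Poitou–Tate diagram is the quotient of
`Hom_G(R, classes of K)` by the trivial part appearing in the finite level duality.
-/

set_option autoImplicit false
set_option linter.unusedSectionVars false

noncomputable section

open scoped Fermat.Agent.ClassField

namespace Fermat.Agent.ClassField.S55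

open Idele IntermediateField

local notation "Qb" => AlgebraicClosure ℚ
local notation "Γ" => (AlgebraicClosure ℚ ≃ₐ[ℚ] AlgebraicClosure ℚ)

/-- An action of the level group compatible with the action of the absolute Galois group. -/
class IsLevelCompat (K : IntermediateField ℚ Qb) [Normal ℚ K] (X : Type*) [SMul Γ X]
    [SMul (LevelGroup K) X] : Prop where
  toLevel_smul : ∀ (σ : Γ) (x : X), toLevel K σ • x = σ • x

export IsLevelCompat (toLevel_smul)

instance (K : IntermediateField ℚ Qb) [Normal ℚ K] (S : Finset Nat.Primes) :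
    IsLevelCompat K (ClassMod K S) :=
  ⟨toLevel_smul_classMod K S⟩

/-- An element of the absolute Galois group over an element of the level group. -/
def liftLevel {K : IntermediateField ℚ Qb} [Normal ℚ K] (g : LevelGroup K) : Γ :=
  Quotient.out (g : LevelGroup K)

theorem toLevel_liftLevel {K : IntermediateField ℚ Qb} [Normal ℚ K] (g : LevelGroup K) :
    toLevel K (liftLevel g) = g :=
  QuotientGroup.out_eq' g

/-- Combination of multiples by `p` and by a number prime to `p`. -/
theorem exists_combination {p n : ℕ} (hp : p.Prime) (hn : ¬ p ∣ n) :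
    ∃ c d : ℤ, c * (p : ℤ) + d * (n : ℤ) = 1 :=
  Int.isCoprime_iff_nat_coprime.2
    (by simpa using hp.coprime_iff_not_dvd.2 hn : Nat.Coprime (p : ℤ).natAbs (n : ℤ).natAbs)

section Common

variable {S : Finset Nat.Primes} {K : IntermediateField ℚ Qb} [Normal ℚ K] [FiniteDimensional ℚ K]
  {hS : S.Nonempty} {hK : K.IsUnramifiedOutside S}

/-- A multiple prime to `p` of a homomorphism into the classes of a level comes from invariant
`S`-ideles. -/
theorem exists_nsmul_hom_eq {p : ℕ} [Fact p.Prime] (hpS : (⟨p, Fact.out⟩ : Nat.Primes) ∈ S)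
    {A : Type*} [AddCommGroup A] {ι : Type*} [Finite ι] (v : Module.Basis ι ℤ A)
    (φ : A →+ ClassMod K S) :
    ∃ n : ℕ, ¬ p ∣ n ∧ ∃ f : A →+ CFix S K, ∀ a, levelClass K hS hK (f a) = n • φ a := by
  classical
  have := Fintype.ofFinite ι
  have hp : p.Prime := Fact.out
  choose n hn x hx using fun i => exists_levelClass_eq_nsmul (hS := hS) (hK := hK) hp hpS (φ (v i))
  refine ⟨∏ i, n i, fun h => ?_, (v.constr ℤ fun i => (∏ j ∈ Finset.univ.erase i, n j) • x i
    ).toAddMonoidHom, fun a => ?_⟩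
  · obtain ⟨i, -, hi⟩ := (hp.prime.dvd_finsetProd_iff _).mp h
    exact hn i hi
  · have e : (levelClass K hS hK).comp
        (v.constr ℤ fun i => (∏ j ∈ Finset.univ.erase i, n j) • x i).toAddMonoidHom =
        (∏ i, n i) • φ := by
      refine AddMonoidHom.toIntLinearMap_injective (v.ext fun i => ?_)
      show levelClass K hS hK ((v.constr ℤ fun i => (∏ j ∈ Finset.univ.erase i, n j) • x i) (v i)) =
        ((∏ i, n i) • φ) (v i)
      rw [v.constr_basis, map_nsmul, hx, ← mul_smul,
        Finset.prod_erase_mul _ _ (Finset.mem_univ i)]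
      rfl
    exact DFunLike.congr_fun e a

/-- The coercion of classes of a level, additively. -/
def classVal : ClassMod K S →+ Additive (IdeleClass (S : Set Nat.Primes)) :=
  MonoidHom.toAdditive (classesOf (S : Set Nat.Primes) K).subtype

omit [Normal ℚ K] [FiniteDimensional ℚ K] in
theorem classVal_injective : Function.Injective (classVal (K := K) (S := S)) := fun _ _ h =>
  Additive.toMul.injective (Subtype.ext (Additive.ofMul.injective h))

end Common

variable {S : Finset Nat.Primes} {p : ℕ} [Fact p.Prime] {M N P R Y : Type*} [AddCommGroup M]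
  [DistribMulAction Γ M] [AddCommGroup N] [DistribMulAction Γ N] [AddCommGroup P]
  [DistribMulAction Γ P] [AddCommGroup R] [DistribMulAction Γ R] [MulAction Γ Y]
  (D : Presentation S p M N P R Y)
  (K : IntermediateField ℚ Qb) [Normal ℚ K] [FiniteDimensional ℚ K]
  [DistribMulAction (LevelGroup K) R] [DistribMulAction (LevelGroup K) P]
  [DistribMulAction (LevelGroup K) N] [MulAction (LevelGroup K) Y]
  [IsLevelCompat K R] [IsLevelCompat K P] [IsLevelCompat K N] [IsLevelCompat K Y]

namespace Presentation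

/-- The presentation as one of modules over the level group. -/
def toFin : FinPresentation (LevelGroup K) R P N Y where
  i :=
    { toFun := D.incl
      map_smul' := fun g r => by
        obtain ⟨σ, rfl⟩ := QuotientGroup.mk'_surjective K.fixingSubgroup g
        show D.incl (toLevel K σ • r) = toLevel K σ • D.incl r
        rw [toLevel_smul, toLevel_smul, map_smul]
      map_zero' := map_zero _
      map_add' := map_add _ }
  π :=
    { toFun := D.π
      map_smul' := fun g r => by
        obtain ⟨σ, rfl⟩ := QuotientGroup.mk'_surjective K.fixingSubgroup g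
        show D.π (toLevel K σ • r) = toLevel K σ • D.π r
        rw [toLevel_smul, toLevel_smul, map_smul]
      map_zero' := map_zero _
      map_add' := map_add _ }
  i_inj := D.incl_injective
  π_surj := D.π_surjective
  exact := D.exact
  b := D.basis
  smul_b g y := by
    obtain ⟨σ, rfl⟩ := QuotientGroup.mk'_surjective K.fixingSubgroup g
    rw [toLevel_smul, toLevel_smul, D.smul_basis]

/-- The trivial part at the level. -/
abbrev levelTrivSub : AddSubgroup (CHom R (ClassMod K S)) :=
  trivSub (D.toFin K) (fun q : ↥S => locIncl K S (q : Nat.Primes))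

variable {D K}

/-- Multiplication by `p`, into the relations. -/
theorem exists_pHom : ∃ pr : P →+ R, (∀ x, D.incl (pr x) = p • x) ∧
    ∀ (σ : Γ) x, pr (σ • x) = σ • pr x := by
  choose r hr using D.nsmul_mem_range
  refine ⟨AddMonoidHom.mk' r fun x y => D.incl_injective (by
    rw [map_add, hr, hr, hr, smul_add]), hr, fun σ x => D.incl_injective ?_⟩
  show D.incl (r (σ • x)) = D.incl (σ • r x)
  rw [hr, map_smul, hr, smul_comm]

omit [Fact p.Prime] [DistribMulAction (LevelGroup K) R] [DistribMulAction (LevelGroup K) P]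
  [DistribMulAction (LevelGroup K) N] [MulAction (LevelGroup K) Y] [IsLevelCompat K R]
  [IsLevelCompat K P] [IsLevelCompat K N] [IsLevelCompat K Y] [FiniteDimensional ℚ K] [Normal ℚ K] in
theorem apply_mem_CFix (hKU : K.fixingSubgroup ≤ D.U₀) {f : CHom R (CMod S)}
    (hf : ∀ σ : Γ, σ • f = f) (r : R) : f r ∈ CFix S K := fun σ hσ => by
  rw [← (CHom.fixed_iff f).1 hf, D.fixed_R (hKU hσ)]

/-- The local components at `q` of an invariant homomorphism into the ideles. -/
theorem exists_localPart (hKU : K.fixingSubgroup ≤ D.U₀) (q : Nat.Primes) {j : CHom R (JMod S)}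
    (hj : ∀ σ : Γ, σ • j = j) :
    ∃ φ : CHom R (locUnits K q), (∀ g : decGroup K q, g • φ = φ) ∧
      ∀ r, (φ r : LUnits q) = compAt q 1 (j r) := by
  have hj' := (CHom.fixed_iff j).1 hj
  have hmem : ∀ r, compAt q 1 (j r) ∈ locUnits K q := fun r τ hτ => by
    rw [← compAt_locHom_mul, mul_one, ← one_mul (locHom q τ), ← compAt_smul, ← hj',
      D.fixed_R (hKU hτ)]
  refine ⟨⟨((compAt q 1).comp j.hom).codRestrict (locUnits K q) hmem⟩, ?_, fun r => rfl⟩
  rw [CHom.fixed_iff]
  intro g r
  obtain ⟨τ, hτ⟩ := g.2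
  refine Subtype.ext ?_
  rw [coe_smul_locUnits hτ]
  show compAt q 1 (j ((g : LevelGroup K) • r)) = τ • compAt q 1 (j r)
  rw [← hτ]
  show compAt q 1 (j (toLevel K (locHom q τ) • r)) = _
  rw [toLevel_smul, hj', compAt_smul, one_mul, ← compAt_locHom_mul, mul_one]

/-- An invariant homomorphism into the ideles with prescribed local component at one prime. -/
theorem exists_of_localPart (hK : K.IsUnramifiedOutside S) {q : Nat.Primes} (hq : q ∈ S)
    {φ : CHom R (locUnits K q)} (hφ : ∀ g : decGroup K q, g • φ = φ) :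
    ∃ j : CHom R (JMod S), (∀ σ : Γ, σ • j = j) ∧ (∀ r, compAt q 1 (j r) = (φ r : LUnits q)) ∧
      ∀ q' ∈ S, q' ≠ q → ∀ r, compAt q' 1 (j r) = 0 := by
  classical
  have hφ' := (CHom.fixed_iff φ).1 hφ
  let F : R → ∀ q' : Nat.Primes, Γ → LUnits q' := fun r q' σ =>
    if h : q = q' then h ▸ ((φ (toLevel K σ • r) : locUnits K q) : LUnits q) else 0
  have hFq : ∀ r σ, F r q σ = (φ (toLevel K σ • r) : LUnits q) := fun r σ => dif_pos rfl
  have hFne : ∀ r q' σ, q ≠ q' → F r q' σ = 0 := fun r q' σ h => dif_neg h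
  have hex : ∀ r, ∃ x : JMod S, ∀ q' ∈ S, ∀ σ, compAt q' σ x = F r q' σ := fun r => by
    obtain ⟨x, -, hx⟩ := exists_jmod (F r) (fun q' _ τ σ => by
      rcases eq_or_ne q q' with rfl | hne
      · rw [hFq, hFq, map_mul, mul_smul,
          show toLevel K (locHom q τ) • (toLevel K σ • r) =
            (⟨_, ⟨τ, rfl⟩⟩ : decGroup K q) • (toLevel K σ • r) from rfl,
          hφ', coe_smul_locUnits rfl]
      · rw [hFne _ _ _ hne, hFne _ _ _ hne, smul_zero])
      K.fixingSubgroup ⟨K, hK, inferInstance, rfl⟩ (fun q' _ σ u hu => by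
        rcases eq_or_ne q q' with rfl | hne
        · rw [hFq, hFq, map_mul, (QuotientGroup.eq_one_iff u).mpr hu |> fun h =>
            (show toLevel K u = 1 from h), mul_one]
        · rw [hFne _ _ _ hne, hFne _ _ _ hne])
    exact ⟨x, hx⟩
  choose x hx using hex
  have hadd : ∀ r r', x (r + r') = x r + x r' := fun r r' => jmod_ext fun q' hq' σ => by
    rw [map_add, hx _ _ hq', hx _ _ hq', hx _ _ hq']
    rcases eq_or_ne q q' with rfl | hne
    · rw [hFq, hFq, hFq, smul_add, map_add, AddSubgroup.coe_add]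
    · rw [hFne _ _ _ hne, hFne _ _ _ hne, hFne _ _ _ hne, add_zero]
  refine ⟨⟨AddMonoidHom.mk' x hadd⟩, (CHom.fixed_iff _).2 fun σ r => jmod_ext fun q' hq' s => ?_,
    fun r => ?_, fun q' hq' hne r => ?_⟩
  · show compAt q' s (x (σ • r)) = compAt q' s (σ • x r)
    rw [compAt_smul, hx _ _ hq', hx _ _ hq']
    rcases eq_or_ne q q' with rfl | hne
    · rw [hFq, hFq, map_mul, mul_smul, ← toLevel_smul (K := K) σ r]
    · rw [hFne _ _ _ hne, hFne _ _ _ hne]
  · show compAt q 1 (x r) = _
    rw [hx _ _ hq, hFq, map_one, one_smul]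
  · exact (hx _ _ hq' 1).trans (hFne _ _ _ (Ne.symm hne))

/-- The class of an invariant homomorphism into the ideles is the sum of the corestrictions of its
local components. -/
theorem levelClass_eq_sum (hS : S.Nonempty) (hK : K.IsUnramifiedOutside S)
    (hKU : K.fixingSubgroup ≤ D.U₀) {j : CHom R (JMod S)} (hj : ∀ σ : Γ, σ • j = j)
    (φ : ∀ q : ↥S, CHom R (locUnits K (q : Nat.Primes)))
    (hφ : ∀ (q : ↥S) r, (φ q r : LUnits (q : Nat.Primes)) = compAt (q : Nat.Primes) 1 (j r))
    (r : R) :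
    levelClass K hS hK ⟨projA S (j r), apply_mem_CFix hKU
        (f := CHom.post (projA S) j) (fun σ => by rw [← map_smul, hj]) r⟩ =
      ∑ q : ↥S, (cores (decGroup K (q : Nat.Primes))
        (CHom.post (locIncl K S (q : Nat.Primes)) (φ q) : CHom R (ClassMod K S)) :
          CHom R (ClassMod K S)) r := by
  classical
  have hj' := (CHom.fixed_iff j).1 hj
  let : ∀ q : Nat.Primes, Fintype (LevelGroup K ⧸ decGroup K q) := fun q => Fintype.ofFinite _
  let σc : ∀ q : Nat.Primes, LevelGroup K ⧸ decGroup K q → Γ := fun q c =>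
    liftLevel (Quotient.out c)
  have hσc : ∀ q c, toLevel K (σc q c) = Quotient.out c := fun q c => toLevel_liftLevel _
  let term : ∀ q : ↥S, LevelGroup K ⧸ decGroup K (q : Nat.Primes) → IdeleGroup := fun q c =>
    σc q c • locIdele K (q : Nat.Primes) (φ q ((σc q c)⁻¹ • r))
  -- the idele identity
  have hid : (((j r).toMul : sIdeles S) : IdeleGroup) = ∏ q : ↥S, ∏ c, term q c := by
    have hprod : ∀ {α : Type} (s : Finset α) (g : α → IdeleGroup) (ℓ : Nat.Primes) (ι : Emb ℓ),
        ((∏ a ∈ s, g a : IdeleGroup) : Raw) ℓ ι = ∏ a ∈ s, ((g a : Raw) ℓ ι) := by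
      intro α s g ℓ ι
      induction s using Finset.induction_on with
      | empty => rfl
      | @insert a s ha ih =>
        rw [Finset.prod_insert ha, Finset.prod_insert ha, ← ih]
        rfl
    refine Subtype.ext (Raw.ext fun ℓ ι => ?_)
    rw [hprod Finset.univ]
    simp only [hprod Finset.univ]
    have hterm : ∀ (q : ↥S) c, (q : Nat.Primes) ≠ ℓ → (term q c : Raw) ℓ ι = 1 := fun q c hne =>
      locIdele_apply_of_ne K (q : Nat.Primes) _ _ hne
    by_cases hℓ : ℓ ∈ S
    · rw [Fintype.prod_eq_single (⟨ℓ, hℓ⟩ : ↥S)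
        (fun q hq => Finset.prod_eq_one fun c _ => hterm q c fun h => hq (Subtype.ext h))]
      obtain ⟨s, rfl⟩ := globalComp_surjective ℓ ι
      let c₀ : LevelGroup K ⧸ decGroup K ℓ := ((toLevel K s)⁻¹ : LevelGroup K)
      have happ : ∀ c, (term ⟨ℓ, hℓ⟩ c : Raw) ℓ (globalComp (emb0 ℓ) s) =
          (locIdele K ℓ (φ ⟨ℓ, hℓ⟩ ((σc ℓ c)⁻¹ • r)) : Raw) ℓ
            (globalComp (emb0 ℓ) (s * σc ℓ c)) := fun c => by
        rw [globalComp_mul]
        rfl
      have hmem : ∀ c, toLevel K (s * σc ℓ c) ∈ decGroup K ℓ ↔ c = c₀ := fun c => by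
        conv_rhs => rw [← QuotientGroup.out_eq' c]
        rw [map_mul, hσc, QuotientGroup.eq, ← mul_inv_rev, inv_mem_iff]
      rw [Fintype.prod_eq_single c₀
        (fun c hc => (happ c).trans (locIdele_apply_of_notMem K ℓ _ fun h => hc ((hmem c).1 h)))]
      obtain ⟨τ, hτ⟩ := (hmem c₀).2 rfl
      refine Additive.ofMul.injective ?_
      rw [happ, locIdele_apply_of_eq K ℓ _ hτ, hφ]
      show compAt ℓ s (j r) = τ • compAt ℓ 1 (j ((σc ℓ c₀)⁻¹ • r))
      rw [← compAt_locHom_mul, mul_one, hj', compAt_smul]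
      have hr : (s : Γ)⁻¹ * (locHom ℓ τ * (σc ℓ c₀)⁻¹) ∈ K.fixingSubgroup := by
        refine (QuotientGroup.eq_one_iff _).1 (show toLevel K _ = 1 from ?_)
        rw [map_mul, map_mul, show toLevel K (locHom ℓ τ) = toLevel K (s * σc ℓ c₀) from hτ,
          map_inv, map_inv, map_mul]
        group
      conv_lhs => rw [← D.fixed_R (hKU hr) r, hj', compAt_smul, ← mul_assoc, mul_inv_cancel,
        one_mul]
    · rw [((j r).toMul : sIdeles S).2.2 ℓ hℓ ι]
      exact (Finset.prod_eq_one fun q _ => Finset.prod_eq_one fun c _ =>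
        hterm q c fun h => hℓ (h ▸ q.2)).symm
  refine classVal_injective ?_
  rw [map_sum]
  have hR : ∀ q : ↥S, classVal ((cores (decGroup K (q : Nat.Primes))
      (CHom.post (locIncl K S (q : Nat.Primes)) (φ q) : CHom R (ClassMod K S)) :
        CHom R (ClassMod K S)) r) =
      Additive.ofMul (classMap (S : Set Nat.Primes) (∏ c, term q c)) := by
    intro q
    rw [cores, CHom.sum_apply, map_sum, map_prod, ofMul_prod]
    refine Finset.sum_congr (Finset.ext fun c => by simp) fun c _ => ?_
    rw [CHom.smul_apply]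
    conv_lhs => rw [← hσc]
    rw [← map_inv, toLevel_smul, toLevel_smul]
    show Additive.ofMul (σc (q : Nat.Primes) c • classMap (S : Set Nat.Primes)
      (locIdele K (q : Nat.Primes) (φ q ((σc (q : Nat.Primes) c)⁻¹ • r)))) = _
    rw [smul_classMap]
  rw [Finset.sum_congr rfl fun q _ => hR q, ← ofMul_prod, ← map_prod, ← hid]
  rfl

variable [Fintype Y]

/-- The target of the Poitou–Tate diagram at the level. -/
theorem natCard_target_quotient [Module.Free ℤ R] [Module.Finite ℤ R] (hC : CTorsion S p)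
    (hS : S.Nonempty) (hpS : (⟨p, Fact.out⟩ : Nat.Primes) ∈ S) (hK : K.IsUnramifiedOutside S)
    (hKU : K.fixingSubgroup ≤ D.U₀) :
    Nat.card ((D.ptDiagram hC).target ⧸
        (D.ptDiagram hC).trivialPart.addSubgroupOf (D.ptDiagram hC).target) =
      Nat.card (fixedSub (LevelGroup K) (CHom R (ClassMod K S)) ⧸
        (D.levelTrivSub K).addSubgroupOf (fixedSub (LevelGroup K) (CHom R (ClassMod K S)))) := by
  classical
  have hp : p.Prime := Fact.out
  let T := D.ptDiagram hC
  let Φ := fixedSub (LevelGroup K) (CHom R (ClassMod K S))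
  let L := levelClass K hS hK
  let Lam : T.target →+ CHom R (ClassMod K S) :=
    AddMonoidHom.mk' (fun f => ⟨L.comp ((f.1.hom).codRestrict (CFix S K)
      fun r => apply_mem_CFix hKU f.2 r)⟩) fun f f' => CHom.ext' fun r => by
        show L ⟨(f + f').1 r, _⟩ = L ⟨f.1 r, _⟩ + L ⟨f'.1 r, _⟩
        rw [← map_add]
        rfl
  have hLam : ∀ (f : T.target) r, Lam f r = L ⟨f.1 r, apply_mem_CFix hKU f.2 r⟩ :=
    fun f r => rfl
  have hLfix : ∀ f : T.target, Lam f ∈ Φ := fun f => (CHom.fixed_iff _).2 fun g r => by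
    obtain ⟨σ, rfl⟩ := QuotientGroup.mk'_surjective K.fixingSubgroup g
    rw [hLam, hLam, toLevel_smul_classMod, ← levelClass_smul]
    refine congrArg L (Subtype.ext ?_)
    show f.1 (toLevel K σ • r) = σ • f.1 r
    rw [toLevel_smul, (CHom.fixed_iff f.1).1 f.2]
  -- the trivial part goes into the trivial part
  have hloc : ∀ (jj : CHom R (JMod S)) (hjj : ∀ σ : Γ, σ • jj = jj),
      Lam ⟨CHom.post (projA S) jj, fun σ => by rw [← map_smul, hjj]⟩ ∈ D.levelTrivSub K := by
    intro jj hjj
    choose φ hφfix hφ using fun q : ↥S => exists_localPart hKU (q : Nat.Primes) hjj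
    have e : Lam ⟨CHom.post (projA S) jj, fun σ => by rw [← map_smul, hjj]⟩ =
        ∑ q : ↥S, cores (decGroup K (q : Nat.Primes))
          (CHom.post (locIncl K S (q : Nat.Primes)) (φ q) : CHom R (ClassMod K S)) :=
      CHom.ext' fun r => by
        rw [CHom.sum_apply, hLam]
        exact levelClass_eq_sum hS hK hKU hjj φ hφ r
    rw [e]
    exact sum_mem fun q _ => AddSubgroup.subset_closure (Or.inr ⟨q, φ q, hφfix q, rfl⟩)
  have htriv : ∀ f : T.target, (f : CHom R (CMod S)) ∈ T.trivialPart →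
      Lam f ∈ D.levelTrivSub K := by
    rintro f ⟨h, jj, hh, hjj, hsum⟩
    have hh1 : ∀ x, h x ∈ CFix S K := fun x σ hσ => by
      rw [← (CHom.fixed_iff h).1 hh, D.fixed_P σ (hKU hσ)]
    let h' : CHom P (ClassMod K S) := ⟨L.comp (h.hom.codRestrict (CFix S K) hh1)⟩
    have hh' : ∀ g : LevelGroup K, g • h' = h' := (CHom.fixed_iff _).2 fun g x => by
      obtain ⟨σ, rfl⟩ := QuotientGroup.mk'_surjective K.fixingSubgroup g
      show L ⟨h (toLevel K σ • x), _⟩ = toLevel K σ • L ⟨h x, _⟩
      rw [toLevel_smul_classMod, ← levelClass_smul]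
      refine congrArg L (Subtype.ext ?_)
      show h (toLevel K σ • x) = σ • h x
      rw [toLevel_smul, (CHom.fixed_iff h).1 hh]
    have e : Lam f = CHom.pre (D.toFin K).i h' +
        Lam ⟨CHom.post (projA S) jj, fun σ => by rw [← map_smul, hjj]⟩ := CHom.ext' fun r => by
      rw [CHom.add_apply, CHom.pre_apply_apply, hLam, hLam]
      show L _ = L ⟨h (D.incl r), _⟩ + L _
      rw [← map_add]
      refine congrArg L (Subtype.ext ?_)
      exact congrArg (fun z : CHom R (CMod S) => z r) hsum.symm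
    rw [e]
    exact add_mem (AddSubgroup.subset_closure (Or.inl ⟨h', hh', rfl⟩)) (hloc jj hjj)
  let Ψ : (T.target ⧸ T.trivialPart.addSubgroupOf T.target) →+
      (Φ ⧸ (D.levelTrivSub K).addSubgroupOf Φ) :=
    QuotientAddGroup.map _ _ (Lam.codRestrict Φ hLfix) fun f hf => htriv f hf
  -- `p` kills the target modulo the trivial part
  obtain ⟨pr, hpr, hprσ⟩ := D.exists_pHom
  have hpr_incl : ∀ r, pr (D.incl r) = p • r := fun r =>
    D.incl_injective (by rw [hpr, map_nsmul])
  have hpT : ∀ f : T.target, p • (f : CHom R (CMod S)) ∈ T.trivialPart := fun f =>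
    ⟨⟨f.1.hom.comp pr⟩, 0, (CHom.fixed_iff _).2 fun σ x => by
      show f.1 (pr (σ • x)) = σ • f.1 (pr x)
      rw [hprσ, (CHom.fixed_iff f.1).1 f.2], fun σ => smul_zero σ, CHom.ext' fun r => by
      rw [CHom.add_apply, CHom.nsmul_apply, map_zero, CHom.zero_apply, add_zero]
      show f.1 (pr (D.incl r)) = _
      rw [hpr_incl, map_nsmul]⟩
  have hpL : ∀ φ ∈ Φ, p • φ ∈ D.levelTrivSub K := fun φ hφ =>
    AddSubgroup.subset_closure (Or.inl ⟨⟨φ.hom.comp pr⟩, (CHom.fixed_iff _).2 fun g x => by
      obtain ⟨σ, rfl⟩ := QuotientGroup.mk'_surjective K.fixingSubgroup g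
      show φ (pr (toLevel K σ • x)) = toLevel K σ • φ (pr x)
      rw [← (CHom.fixed_iff φ).1 hφ, toLevel_smul, toLevel_smul, hprσ], CHom.ext' fun r => by
      show φ (pr (D.incl r)) = _
      rw [hpr_incl, map_nsmul, CHom.nsmul_apply]⟩)
  -- elements of the trivial part at the level come, up to prime to `p`, from the trivial part
  have hback : ∀ x ∈ D.levelTrivSub K, ∃ n : ℕ, ¬ p ∣ n ∧ ∃ f : T.target,
      (f : CHom R (CMod S)) ∈ T.trivialPart ∧ Lam f = n • x := by
    intro x hx
    induction hx using AddSubgroup.closure_induction with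
    | mem x hx =>
      rcases hx with ⟨h, hh, rfl⟩ | ⟨q, φ, hφ, rfl⟩
      · obtain ⟨n, hn, f, hf⟩ := exists_nsmul_hom_eq (hS := hS) (hK := hK) hpS D.basis h.hom
        have hff : ∀ σ : Γ, σ • (⟨(CFix S K).subtype.comp f⟩ : CHom P (CMod S)) =
            ⟨(CFix S K).subtype.comp f⟩ := (CHom.fixed_iff _).2 fun σ x => by
          have e : f (σ • x) = ⟨σ • (f x : CMod S), smul_mem_CFix K σ (f x).2⟩ :=
            levelClass_injective (hS := hS) (hK := hK) (by
              rw [hf, levelClass_smul, hf, smul_comm, ← toLevel_smul (K := K) σ x]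
              exact congrArg (n • ·) ((CHom.fixed_iff h).1 hh (toLevel K σ) x))
          exact congrArg Subtype.val e
        have ht : T.rC ⟨(CFix S K).subtype.comp f⟩ ∈ T.target := fun σ => by
          rw [← map_smul, hff]
        refine ⟨n, hn, ⟨_, ht⟩, ⟨_, 0, hff, fun σ => smul_zero σ,
          by rw [map_zero, add_zero]⟩, CHom.ext' fun r => ?_⟩
        rw [hLam, CHom.nsmul_apply]
        exact hf (D.incl r)
      · obtain ⟨jj, hjj, hq, hne⟩ := exists_of_localPart (R := R) hK q.2 hφ
        refine ⟨1, hp.not_dvd_one, ⟨CHom.post (projA S) jj, fun σ => by rw [← map_smul, hjj]⟩,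
          ⟨0, jj, smul_zero, hjj, (congrArg (· + _) (map_zero T.rC)).trans (zero_add _)⟩,
          CHom.ext' fun r => ?_⟩
        rw [one_smul, hLam]
        choose ψ hψfix hψ using fun q : ↥S => exists_localPart (K := K) hKU (q : Nat.Primes) hjj
        refine (levelClass_eq_sum hS hK hKU hjj ψ hψ r).trans ?_
        rw [Fintype.sum_eq_single q fun q' hq' => ?_]
        · rw [show ψ q = φ from CHom.ext' fun r => Subtype.ext ((hψ q r).trans (hq r))]
        · rw [show ψ q' = 0 from CHom.ext' fun r => Subtype.ext ((hψ q' r).trans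
            (hne _ q'.2 (fun h => hq' (Subtype.ext h)) r)), map_zero]
          simp [cores]
    | zero =>
      exact ⟨1, hp.not_dvd_one, 0, T.trivialPart.zero_mem, by rw [map_zero, smul_zero]⟩
    | add x y _ _ hx hy =>
      obtain ⟨n, hn, f, hfT, hf⟩ := hx
      obtain ⟨m, hm, g, hgT, hg⟩ := hy
      refine ⟨n * m, fun h => (hp.dvd_mul.1 h).elim hn hm, m • f + n • g,
        T.trivialPart.add_mem (T.trivialPart.nsmul_mem hfT m) (T.trivialPart.nsmul_mem hgT n), ?_⟩
      rw [map_add, map_nsmul, map_nsmul, hf, hg, smul_add, mul_smul, mul_smul, smul_comm n m x]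
    | neg x _ hx =>
      obtain ⟨n, hn, f, hfT, hf⟩ := hx
      exact ⟨n, hn, -f, T.trivialPart.neg_mem hfT, by rw [map_neg, hf, smul_neg]⟩
  have hinj : Function.Injective Ψ := (injective_iff_map_eq_zero Ψ).2 fun a ha => by
    obtain ⟨f, rfl⟩ := QuotientAddGroup.mk'_surjective _ a
    have hmem : Lam f ∈ D.levelTrivSub K :=
      AddSubgroup.mem_addSubgroupOf.1 ((QuotientAddGroup.eq_zero_iff _).1 ha)
    obtain ⟨n, hn, g, hgT, hg⟩ := hback _ hmem
    have hLinj : ∀ a b : T.target, Lam a = Lam b → (a : CHom R (CMod S)) = b := fun a b h =>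
      CHom.ext' fun r => congrArg Subtype.val (levelClass_injective (hS := hS) (hK := hK)
        (congrArg (fun z : CHom R (ClassMod K S) => z r) h))
    have hnf : n • (f : CHom R (CMod S)) ∈ T.trivialPart := by
      rw [← map_nsmul] at hg
      rw [show n • (f : CHom R (CMod S)) = g from hLinj (n • f) g hg.symm]
      exact hgT
    exact (QuotientAddGroup.eq_zero_iff _).2 (AddSubgroup.mem_addSubgroupOf.2
      (mem_of_nsmul_mem_of_not_dvd hn hnf (hpT f)))
  have hsurj : Function.Surjective Ψ := fun a => by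
    obtain ⟨⟨φ, hφ⟩, rfl⟩ := QuotientAddGroup.mk'_surjective _ a
    obtain ⟨n, hn, f, hf⟩ := exists_nsmul_hom_eq (hS := hS) (hK := hK) hpS
      (Module.Free.chooseBasis ℤ R) φ.hom
    have hff : (⟨(CFix S K).subtype.comp f⟩ : CHom R (CMod S)) ∈ T.target :=
      (CHom.fixed_iff _).2 fun σ x => by
        have e : f (σ • x) = ⟨σ • (f x : CMod S), smul_mem_CFix K σ (f x).2⟩ :=
          levelClass_injective (hS := hS) (hK := hK) (by
            rw [hf, levelClass_smul, hf, smul_comm, ← toLevel_smul (K := K) σ x]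
            exact congrArg (n • ·) ((CHom.fixed_iff φ).1 hφ (toLevel K σ) x))
        exact congrArg Subtype.val e
    obtain ⟨c, d, hcd⟩ := exists_combination hp hn
    refine ⟨d • QuotientAddGroup.mk' _ ⟨_, hff⟩, ?_⟩
    rw [map_zsmul]
    show d • QuotientAddGroup.mk' ((D.levelTrivSub K).addSubgroupOf Φ)
      (⟨Lam ⟨_, hff⟩, hLfix _⟩ : Φ) = _
    rw [← map_zsmul]
    refine QuotientAddGroup.eq.2 (AddSubgroup.mem_addSubgroupOf.2 ?_)
    show -(d • Lam ⟨_, hff⟩) + φ ∈ _
    have e : Lam ⟨_, hff⟩ = n • φ := CHom.ext' fun r => by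
      rw [hLam, CHom.nsmul_apply]
      exact hf r
    have e2 : -(d • (n • φ)) + φ = c • (p • φ) := by
      rw [← natCast_zsmul, ← natCast_zsmul, ← mul_zsmul', ← mul_zsmul', neg_add_eq_iff_eq_add,
        ← add_zsmul, add_comm, mul_comm (p : ℤ) c, mul_comm (n : ℤ) d, hcd, one_zsmul]
    rw [e, e2]
    exact AddSubgroup.zsmul_mem _ (hpL φ hφ) c
  exact Nat.card_congr (Equiv.ofBijective Ψ ⟨hinj, hsurj⟩)

end Presentation

end Fermat.Agent.ClassField.S55
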