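import Fermat.Agent.ClassField.S55.Final.Level

/-!
# S55 assembly: the inputs from class field theory
-/

set_option autoImplicit false

noncomputable section

namespace Fermat.Agent.ClassField.S55

open Idele IntermediateField

local notation "Qb" => AlgebraicClosure ℚ
local notation "Γ" => (AlgebraicClosure ℚ ≃ₐ[ℚ] AlgebraicClosure ℚ)

/-- Class formation data at a level: a global class restricting to local fundamental classes. -/
def HasClassFormation (S : Finset Nat.Primes) (p : ℕ) (K : IntermediateField ℚ Qb)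
    [Normal ℚ K] [FiniteDimensional ℚ K] : Prop :=
  ∃ u : LevelGroup K × LevelGroup K → ClassMod K S,
    IsPClassModule p (LevelGroup K) (ClassMod K S) u ∧
      ∀ q ∈ S, ∃ uv : decGroup K q × decGroup K q → locUnits K q,
        IsPClassModule p (decGroup K q) (locUnits K q) uv ∧
          ∃ w : decGroup K q → ClassMod K S, ∀ x : decGroup K q × decGroup K q,
            u ((x.1 : LevelGroup K), (x.2 : LevelGroup K)) = locIncl K S q (uv x) + d1 w x

/-- Everything Poitou–Tate needs from class field theory. -/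
structure PTInputs (S : Finset Nat.Primes) (p : ℕ) : Prop where
  classFormation : ∀ (K : IntermediateField ℚ Qb) [Normal ℚ K] [FiniteDimensional ℚ K],
    K.IsUnramifiedOutside S → (∃ ζ : Qb, IsPrimitiveRoot ζ p ∧ ζ ∈ K) →
      HasClassFormation S p K
  capitulation : ∀ (K : IntermediateField ℚ Qb) [Normal ℚ K] [FiniteDimensional ℚ K],
    K.IsUnramifiedOutside S → (∃ ζ : Qb, IsPrimitiveRoot ζ p ∧ ζ ∈ K) →
      ∀ c ∈ classesOf (S : Set Nat.Primes) K, ∃ n : ℕ, ¬ p ∣ n ∧ ∃ j ∈ sIdeles S,
        classMap (S : Set Nat.Primes) j = c ^ n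
  existence : ∀ (K₀ : IntermediateField ℚ Qb) [Normal ℚ K₀] [FiniteDimensional ℚ K₀],
    K₀.IsUnramifiedOutside S → (∃ ζ : Qb, IsPrimitiveRoot ζ p ∧ ζ ∈ K₀) →
      ∃ K : IntermediateField ℚ Qb, FiniteDimensional ℚ K ∧ Normal ℚ K ∧ K₀ ≤ K ∧
        K.IsUnramifiedOutside S ∧
        normClasses (S : Set Nat.Primes) K₀ K ≤
          (classesOf (S : Set Nat.Primes) K₀).map (powMonoidHom p) ⊔
            ((idelesOf K₀ ⊓ sIdeles S).map (classMap (S : Set Nat.Primes)))

end Fermat.Agent.ClassField.S55
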