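import Fermat.Agent.ClassField.Idele.Existence
import Fermat.Agent.ClassField.S55.Bridge.Capitulation
import Fermat.Agent.ClassField.S55.Final.Inputs

/-!
# S55: the inputs from class field theory, assembled
-/

set_option autoImplicit false

noncomputable section

namespace Fermat.Agent.ClassField.S55

open Idele IntermediateField

local notation "Qb" => AlgebraicClosure ℚ
local notation "Γ" => (AlgebraicClosure ℚ ≃ₐ[ℚ] AlgebraicClosure ℚ)

/-- The inputs of Poitou–Tate, given the class formations of the levels. -/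
theorem ptInputs_of_classFormation {p : ℕ} [hp : Fact p.Prime] (hp2 : p ≠ 2)
    (S : Finset Nat.Primes) (hpS : (⟨p, hp.out⟩ : Nat.Primes) ∈ S)
    (hform : ∀ (K : IntermediateField ℚ Qb) [Normal ℚ K] [FiniteDimensional ℚ K],
      K.IsUnramifiedOutside S → (∃ ζ : Qb, IsPrimitiveRoot ζ p ∧ ζ ∈ K) →
        HasClassFormation S p K) :
    PTInputs S p where
  classFormation := hform
  capitulation K _ _ hK _ c hc := exists_sIdele_pow_class hp.out hpS hK hc
  existence K₀ _ _ hK₀ := fun ⟨ζ, hζ, hζK⟩ => by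
    obtain ⟨K, hn, hle, hK, hN⟩ := exists_level_normClasses_le hp2 S hpS K₀ hζ hζK hK₀
    refine ⟨K, hK.1, hn, hle, hK, hN.trans (sup_le_sup_left (Subgroup.map_mono ?_) _)⟩
    rintro f ⟨hf, hf'⟩
    obtain ⟨N, hle', hN', hNn⟩ := exists_normal_isUnramifiedOutside hK₀
    exact ⟨hf, ⟨_, ⟨N, hN', hNn, rfl⟩, fun s hs => hf s (fixingSubgroup_antitone hle' hs)⟩, hf'⟩

end Fermat.Agent.ClassField.S55
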