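import Fermat.Agent.ClassField.S55.Final.ClassQuotient
import Fermat.Agent.ClassField.S55.Final.InputsProof

/-!
# S55: class formations modulo units away from `S` from those of all classes
-/

set_option autoImplicit false

noncomputable section

open IntermediateField

namespace Fermat.Agent.ClassField.S55

open Idele

local notation "Qb" => AlgebraicClosure ℚ
local notation "Γ" => (AlgebraicClosure ℚ ≃ₐ[ℚ] AlgebraicClosure ℚ)

variable (K : IntermediateField ℚ Qb) [Normal ℚ K] [FiniteDimensional ℚ K] (q : Nat.Primes)

/-- The class of a local unit among all classes of the level. -/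
def locClass (y : locUnits K q) : LevelMod K.fixingSubgroup :=
  ⟨Additive.ofMul (classMap Set.univ (locIdele K q y)),
    mem_levelMod_iff.2 ⟨_, locIdele_mem K q y, rfl⟩⟩

theorem levelProj_locClass (S : Finset Nat.Primes) (y : locUnits K q) :
    levelProj S K (locClass K q y) = locIncl K S q y :=
  rfl

/-- The class formation data of all classes of a level. -/
def HasUnivClassFormation (p : ℕ) : Prop :=
  ∃ u : LevelGroup K × LevelGroup K → LevelMod K.fixingSubgroup,
    IsPClassModule p (LevelGroup K) (LevelMod K.fixingSubgroup) u ∧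
      ∀ q : Nat.Primes, ∃ uv : decGroup K q × decGroup K q → locUnits K q,
        IsPClassModule p (decGroup K q) (locUnits K q) uv ∧
          ∃ w : decGroup K q → LevelMod K.fixingSubgroup, ∀ x : decGroup K q × decGroup K q,
            u ((x.1 : LevelGroup K), (x.2 : LevelGroup K)) = locClass K q (uv x) + d1 w x

/-- Class formations of all classes give class formations modulo units away from `S`. -/
theorem hasClassFormation_of_univ {p : ℕ} [Fact p.Prime] (hp : p ≠ 2) {S : Finset Nat.Primes}
    (hS : S.Nonempty) (hK : K.IsUnramifiedOutside S) {ζ : Qb} (hζ : IsPrimitiveRoot ζ p)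
    (hζK : ζ ∈ K) (h : HasUnivClassFormation K p) : HasClassFormation S p K := by
  obtain ⟨u, hu, hloc⟩ := h
  refine ⟨levelProj S K ∘ u, isPClassModule_classMod K hp hS hK hζ hζK hu, fun q _ => ?_⟩
  obtain ⟨uv, huv, w, hw⟩ := hloc q
  refine ⟨uv, huv, levelProj S K ∘ w, fun x => ?_⟩
  rw [Function.comp_apply, hw, map_add, levelProj_locClass]
  congr 1
  simp only [d1, Function.comp_apply, map_add, map_sub]
  rw [show levelProj S K (x.1 • w x.2) = x.1 • levelProj S K (w x.2) from levelProj_smul S K _ _]

/-- The inputs of Poitou–Tate from the class formations of all classes. -/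
theorem ptInputs_of_univ {p : ℕ} [hp : Fact p.Prime] (hp2 : p ≠ 2) (S : Finset Nat.Primes)
    (hpS : (⟨p, hp.out⟩ : Nat.Primes) ∈ S)
    (hform : ∀ (K : IntermediateField ℚ Qb) [Normal ℚ K] [FiniteDimensional ℚ K],
      (∃ ζ : Qb, IsPrimitiveRoot ζ p ∧ ζ ∈ K) → HasUnivClassFormation K p) :
    PTInputs S p :=
  ptInputs_of_classFormation hp2 S hpS fun K _ _ hK hζ =>
    hζ.elim fun _ h => hasClassFormation_of_univ K hp2 ⟨_, hpS⟩ hK h.1 h.2 (hform K ⟨_, h⟩)

end Fermat.Agent.ClassField.S55
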