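import Fermat.Agent.ClassField.S55.Bridge.Diagram
import Fermat.Agent.ClassField.S55.Bridge.Capitulation
import Fermat.Agent.ClassField.S55.Final.Inputs
import Fermat.Agent.ClassField.Idele.Descent
import Fermat.Agent.ClassField.Idele.Unramified

/-!
# S55 assembly: classes of `S`-ideles at a level, and `p`-torsion in `H¹` of the classes

`levelClass` embeds the invariants of `CMod S` into the classes of a level, with cokernel of order
prime to `p`; hence `CTorsion` follows from the class formation.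
-/

set_option autoImplicit false

noncomputable section

namespace Fermat.Agent.ClassField.S55

open Idele IntermediateField

local notation "Qb" => AlgebraicClosure ℚ
local notation "Γ" => (AlgebraicClosure ℚ ≃ₐ[ℚ] AlgebraicClosure ℚ)

variable {S : Finset Nat.Primes}

/-! ### `S`-idele classes into idele classes modulo units away from `S` -/

theorem classMap_truncate_principal (x : sUnits S) :
    classMap (S : Set Nat.Primes) (truncate S (principal (x : Qbˣ))) = 1 := by
  rw [classMap_truncate (g := principal (x : Qbˣ)) fun ℓ hℓ ι => x.2.2 ℓ hℓ ι, classMap_principal]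

/-- `sClasses S → IdeleClass S`. -/
def kappa : sClasses S →* IdeleClass (S : Set Nat.Primes) :=
  QuotientGroup.lift (diag S).range ((classMap (S : Set Nat.Primes)).comp (sIdeles S).subtype) (by
    rintro _ ⟨x, rfl⟩
    exact classMap_truncate_principal x)

theorem kappa_mk (f : sIdeles S) :
    kappa (QuotientGroup.mk' (diag S).range f) = classMap (S : Set Nat.Primes) f := rfl

theorem kappa_smul (σ : Γ) (c : sClasses S) : kappa (σ • c) = σ • kappa c := by
  obtain ⟨f, rfl⟩ := QuotientGroup.mk'_surjective _ c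
  rfl

theorem kappa_injective (hS : S.Nonempty) : Function.Injective (kappa (S := S)) := by
  rw [injective_iff_map_eq_one]
  intro c hc
  obtain ⟨f, rfl⟩ := QuotientGroup.mk'_surjective _ c
  obtain ⟨x, u, hu, he⟩ := exists_principal_apply
    (show classMap (S : Set Nat.Primes) (f : IdeleGroup) = classMap (S : Set Nat.Primes) 1 from
      hc.trans (map_one _).symm)
  rw [inv_one, mul_one] at he
  have hval : ∀ (ℓ : Nat.Primes) (ι : Emb ℓ), ((f : IdeleGroup) : Raw) ℓ ι =
      ((principal x : IdeleGroup) : Raw) ℓ ι * (u : Raw) ℓ ι := fun ℓ ι => by rw [he]; rfl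
  have hin : ∀ ℓ ∈ S, ∀ ι : Emb ℓ,
      (((f : IdeleGroup) : Raw) ℓ ι : PadicAlgCl (ℓ : ℕ)) = ι (x : Qb) := fun ℓ hℓ ι => by
    rw [hval, hu.1 ℓ hℓ ι, mul_one]
    rfl
  have hnorm : ∀ ℓ ∉ S, ∀ ι : Emb ℓ, ‖ι (x : Qb)‖ = 1 := fun ℓ hℓ ι => by
    have h := congrArg (fun z : (PadicAlgCl (ℓ : ℕ))ˣ => ‖(z : PadicAlgCl (ℓ : ℕ))‖) (hval ℓ ι)
    simp only [f.2.2 ℓ hℓ ι, Units.val_one, norm_one, Units.val_mul, norm_mul,
      hu.2 ℓ hℓ ι, mul_one] at h
    exact h.symm
  have hfix : IsFixed S x := by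
    obtain ⟨U, hU, h⟩ := f.2.1
    obtain ⟨q, hq⟩ := hS
    obtain ⟨ι⟩ := nonempty_emb q
    refine ⟨U, hU, fun s hs => Units.ext (ι.toRingHom.injective ?_)⟩
    show ι (s (x : Qb)) = ι (x : Qb)
    rw [← hin q hq ι, ← globalComp_apply, ← hin q hq]
    exact congrArg (fun g : IdeleGroup => (((g : Raw) q ι : (PadicAlgCl (q : ℕ))ˣ) :
      PadicAlgCl (q : ℕ))) (h s hs)
  refine (QuotientGroup.eq_one_iff _).mpr ⟨⟨x, hfix, hnorm⟩, Subtype.ext (Subtype.ext (Raw.ext
    fun ℓ ι => Units.ext ?_))⟩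
  by_cases hℓ : ℓ ∈ S
  · rw [diag_apply_of_mem _ hℓ, hin ℓ hℓ]
  · rw [coe_diag, truncate_apply, if_neg hℓ, f.2.2 ℓ hℓ ι]

/-- The fields of the levels. -/
theorem exists_level_field {U : Subgroup Γ} (hU : U ∈ (levels S).carrier) :
    ∃ F : IntermediateField ℚ Qb, FiniteDimensional ℚ F ∧ Normal ℚ F ∧
      F.IsUnramifiedOutside S ∧ F.fixingSubgroup = U :=
  let ⟨F, hF, hn, he⟩ := hU
  ⟨F, hF.1, hn, hF, he⟩

theorem le_of_fixingSubgroup_le {K F : IntermediateField ℚ Qb}
    (h : F.fixingSubgroup ≤ K.fixingSubgroup) : K ≤ F := fun _ hx =>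
  mem_of_forall_fixingSubgroup F fun _ hσ =>
    (IntermediateField.mem_fixingSubgroup_iff _ _).mp (h hσ) _ hx

variable (K : IntermediateField ℚ Qb)

variable (S) in
/-- Invariants of a level in `CMod S`. -/
def CFix : AddSubgroup (CMod S) where
  carrier := {x | ∀ σ ∈ K.fixingSubgroup, σ • x = x}
  add_mem' ha hb σ hσ := by rw [smul_add, ha σ hσ, hb σ hσ]
  zero_mem' σ _ := smul_zero σ
  neg_mem' ha σ hσ := by rw [smul_neg, ha σ hσ]

theorem mem_CFix {x : CMod S} : x ∈ CFix S K ↔ ∀ σ ∈ K.fixingSubgroup, σ • x = x := Iff.rfl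

variable [Normal ℚ K]

theorem smul_mem_CFix (σ : Γ) {x : CMod S} (hx : x ∈ CFix S K) : σ • x ∈ CFix S K := fun s hs => by
  have h : σ⁻¹ * s * σ ∈ K.fixingSubgroup := by
    have := (normal_fixingSubgroup K).conj_mem s hs σ⁻¹
    simpa using this
  calc s • σ • x = σ • (σ⁻¹ * s * σ) • x := by rw [← mul_smul, ← mul_smul]; congr 1; group
    _ = σ • x := by rw [hx _ h]

variable {K} [FiniteDimensional ℚ K]

omit [FiniteDimensional ℚ K] in
theorem classMap_mem_classesOf (hS : S.Nonempty) (hK : K.IsUnramifiedOutside S) {x : CMod S}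
    (hx : x ∈ CFix S K) : kappa x.toMul ∈ classesOf (S : Set Nat.Primes) K := by
  obtain ⟨f, hf⟩ := QuotientGroup.mk'_surjective (diag S).range x.toMul
  obtain ⟨U, hU, hfU⟩ := f.2.1
  obtain ⟨W, hW, hWU, hWK⟩ := (levels S).directed U hU _ ⟨K, hK, inferInstance, rfl⟩
  obtain ⟨F, hFf, hFn, hF, rfl⟩ := exists_level_field hW
  refine classesOf_descent (Finset.coe_nonempty.mpr hS)
    (le_of_fixingSubgroup_le hWK)
    (fun ℓ hℓ => isUnramifiedAt_of_isUnramifiedOutside hF hℓ) ?_ fun σ hσ => ?_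
  · rw [← hf, kappa_mk]
    exact ⟨f, fun s hs => hfU s (hWU hs), rfl⟩
  · rw [← kappa_smul]
    exact congrArg (fun z : CMod S => kappa z.toMul) (hx σ hσ)

variable (K) in
/-- Invariant classes of `S`-ideles into the classes of the level. -/
def levelClass (hS : S.Nonempty) (hK : K.IsUnramifiedOutside S) : CFix S K →+ ClassMod K S where
  toFun x := Additive.ofMul ⟨kappa (x : CMod S).toMul, classMap_mem_classesOf hS hK x.2⟩
  map_zero' := congrArg Additive.ofMul (Subtype.ext (map_one _))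
  map_add' _ _ := congrArg Additive.ofMul (Subtype.ext (map_mul kappa _ _))

variable {hS : S.Nonempty} {hK : K.IsUnramifiedOutside S}

omit [FiniteDimensional ℚ K] in
theorem levelClass_smul (σ : Γ) (x : CFix S K) :
    levelClass K hS hK ⟨σ • (x : CMod S), smul_mem_CFix K σ x.2⟩ = σ • levelClass K hS hK x :=
  congrArg Additive.ofMul (Subtype.ext (kappa_smul σ _))

omit [FiniteDimensional ℚ K] in
theorem levelClass_injective : Function.Injective (levelClass K hS hK) := fun _ _ h =>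
  Subtype.ext (Additive.toMul.injective (kappa_injective hS
    (congrArg Subtype.val (Additive.ofMul.injective h))))

/-- Up to an exponent prime to `p` every class of the level comes from invariant `S`-ideles. -/
theorem exists_levelClass_eq_nsmul {p : ℕ} (hp : p.Prime) (hpS : (⟨p, hp⟩ : Nat.Primes) ∈ S)
    (c : ClassMod K S) :
    ∃ n : ℕ, ¬ p ∣ n ∧ ∃ x : CFix S K, levelClass K hS hK x = n • c := by
  obtain ⟨n, hn, j, hj, hje⟩ := exists_sIdele_pow_class hp hpS hK c.toMul.2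
  let x : CMod S := Additive.ofMul (QuotientGroup.mk' (diag S).range ⟨j, hj⟩)
  have hx : x ∈ CFix S K := fun σ hσ => Additive.toMul.injective (kappa_injective hS (by
    show kappa (σ • x.toMul) = kappa x.toMul
    rw [kappa_smul]
    show σ • classMap (S : Set Nat.Primes) j = classMap (S : Set Nat.Primes) j
    rw [hje, smul_pow', smul_eq_of_mem_fixingSubgroup K S hσ c.toMul.2]))
  exact ⟨n, hn, ⟨x, hx⟩, Additive.toMul.injective (Subtype.ext hje)⟩

/-! ### a level containing the roots of unity -/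

variable (S) in
theorem exists_level_zeta {p : ℕ} (hp : p.Prime) (hpS : (⟨p, hp⟩ : Nat.Primes) ∈ S) :
    ∃ U ∈ (levels S).carrier, ∀ F : IntermediateField ℚ Qb, F.fixingSubgroup ≤ U →
      ∃ ζ : Qb, IsPrimitiveRoot ζ p ∧ ζ ∈ F := by
  have : NeZero p := ⟨hp.ne_zero⟩
  obtain ⟨ζ, hζ⟩ := HasEnoughRootsOfUnity.exists_primitiveRoot Qb p
  have hroot : ζ ^ p = 1 := hζ.pow_eq_one
  have h := isUnramifiedOutside_adjoin (isUnramifiedOutside_bot S) hp.ne_zero (fun q hq => by
      rwa [show q = (⟨p, hp⟩ : Nat.Primes) from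
        Subtype.ext ((Nat.prime_dvd_prime_iff_eq q.2 hp).mp hq)])
    (hζ.ne_zero hp.ne_zero) (hroot ▸ one_mem _) fun q _ ι => by rw [hroot, map_one, norm_one]
  obtain ⟨N, hle, hN, hNn⟩ := exists_normal_isUnramifiedOutside h
  refine ⟨N.fixingSubgroup, ⟨N, hN, hNn, rfl⟩, fun F hF => ⟨ζ, hζ, ?_⟩⟩
  exact le_of_fixingSubgroup_le hF (hle ((le_sup_right : ℚ⟮ζ⟯ ≤ (⊥ : IntermediateField ℚ Qb) ⊔ ℚ⟮ζ⟯)
    (mem_adjoin_simple_self ℚ ζ)))

/-! ### `p`-torsion in `H¹` -/

/-- A `p`-torsion class in `H¹` of a subgroup vanishes if it vanishes on the `p`-subgroups. -/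
theorem exists_d0_eq_of_pgroups {p : ℕ} [Fact p.Prime] {G C : Type*} [Group G] [Finite G]
    [AddCommGroup C] [DistribMulAction G C]
    (h1 : ∀ P : Subgroup G, IsPGroup p P → ∀ f : P → C, d1 f = 0 → ∃ x : C, d0 x = f)
    (H : Subgroup G) (b : H → C) (hb : ∀ g h : H, b (g * h) = (g : G) • b h + b g) (y : C)
    (hy : ∀ g : H, (g : G) • y - y = p • b g) :
    ∃ x : C, ∀ g : H, (g : G) • x - x = b g := by
  classical
  let P : Sylow p H := default
  let Q : Subgroup G := (P : Subgroup H).map H.subtype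
  have hQH : Q ≤ H := Subgroup.map_subtype_le _
  obtain ⟨x₀, hx₀⟩ := h1 Q (P.2.map _) (fun q => b ⟨q, hQH q.2⟩) (funext fun ⟨g, h⟩ => by
    show (g : G) • b ⟨(h : G), _⟩ - b ⟨((g * h : Q) : G), _⟩ + b ⟨(g : G), _⟩ = 0
    rw [show (⟨((g * h : Q) : G), hQH (g * h).2⟩ : H) = ⟨g, hQH g.2⟩ * ⟨h, hQH h.2⟩ from rfl, hb]
    abel)
  let b' : H → C := fun g => b g - ((g : G) • x₀ - x₀)
  have hb' : ∀ g h : H, b' (g * h) = (g : G) • b' h + b' g := fun g h => by
    simp only [b', hb, Subgroup.coe_mul, mul_smul, smul_sub]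
    abel
  have hzero : ∀ q : H, q ∈ (P : Subgroup H) → b' q = 0 := fun q hq => by
    have := congrFun hx₀ ⟨q, Subgroup.mem_map_of_mem _ hq⟩
    simp only [b', sub_eq_zero]
    exact this.symm
  have hcong : ∀ g h : H, (g : H ⧸ (P : Subgroup H)) = h → b' g = b' h := fun g h e => by
    conv_rhs => rw [show h = g * (g⁻¹ * h) by group, hb', hzero _ (QuotientGroup.eq.mp e),
      smul_zero, zero_add]
  let m := Nat.card (H ⧸ (P : Subgroup H))
  have := Fintype.ofFinite (H ⧸ (P : Subgroup H))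
  let tot : C := ∑ c : H ⧸ (P : Subgroup H), b' c.out
  have hsum : ∀ g : H, (g : G) • tot = tot - m • b' g := fun g => by
    have e : ∀ c : H ⧸ (P : Subgroup H), (g : G) • b' c.out = b' (g • c).out - b' g := fun c => by
      rw [eq_sub_iff_add_eq, ← hb']
      refine hcong _ _ ?_
      rw [QuotientGroup.out_eq']
      conv_rhs => rw [← QuotientGroup.out_eq' c]
      rfl
    rw [Finset.smul_sum, Finset.sum_congr rfl fun c _ => e c, Finset.sum_sub_distrib,
      Finset.sum_const, Finset.card_univ, ← Nat.card_eq_fintype_card]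
    congr 1
    exact Fintype.sum_equiv (MulAction.toPerm g) _ _ fun _ => rfl
  have hm : ¬ p ∣ m := by
    show ¬ p ∣ (P : Subgroup H).index
    exact P.not_dvd_index
  obtain ⟨c, d, hcd⟩ := Int.isCoprime_iff_nat_coprime.2
    (by simpa using (Fact.out : p.Prime).coprime_iff_not_dvd.2 hm :
      Nat.Coprime (p : ℤ).natAbs (m : ℤ).natAbs)
  refine ⟨c • y + d • (m • x₀ - tot), fun g => ?_⟩
  have e1 : (g : G) • (m • x₀ - tot) - (m • x₀ - tot) = m • b g := by
    rw [smul_sub, hsum, smul_comm (g : G) m x₀]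
    simp only [b', smul_sub]
    abel
  generalize m • x₀ - tot = z at e1 ⊢
  calc (g : G) • (c • y + d • z) - (c • y + d • z)
      = c • ((g : G) • y - y) + d • ((g : G) • z - z) := by
        simp only [smul_add, smul_comm (g : G) c, smul_comm (g : G) d, zsmul_sub]
        abel
    _ = b g := by
        rw [hy, e1, ← natCast_zsmul, ← natCast_zsmul, ← mul_smul, ← mul_smul, ← add_zsmul, hcd,
          one_zsmul]

/-- `p`-torsion classes in `H¹` of the classes vanish. -/
theorem cTorsion_of_inputs {p : ℕ} [Fact p.Prime] (hpS : (⟨p, Fact.out⟩ : Nat.Primes) ∈ S)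
    (hform : ∀ (K : IntermediateField ℚ Qb) [Normal ℚ K] [FiniteDimensional ℚ K],
      K.IsUnramifiedOutside S → (∃ ζ : Qb, IsPrimitiveRoot ζ p ∧ ζ ∈ K) →
        HasClassFormation S p K) :
    CTorsion S p := by
  rintro H ⟨U₁, hU₁, hU₁H⟩ a hcoc ⟨U₂, hU₂, hlev⟩ ⟨y, hy⟩
  have hp : p.Prime := Fact.out
  have hSne : S.Nonempty := ⟨_, hpS⟩
  obtain ⟨U₃, hU₃, hzeta⟩ := exists_level_zeta S hp hpS
  obtain ⟨U₄, hU₄, hy₄⟩ := discrete_CMod y
  obtain ⟨V, hV, hV₁, hV₂⟩ := (levels S).directed U₁ hU₁ U₂ hU₂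
  obtain ⟨V', hV', hV'₁, hV'₂⟩ := (levels S).directed U₃ hU₃ U₄ hU₄
  obtain ⟨W, hW, hWV, hWV'⟩ := (levels S).directed V hV V' hV'
  obtain ⟨K, hKf, hKn, hK, rfl⟩ := exists_level_field hW
  obtain ⟨u, hu, -⟩ := hform K hK (hzeta K (hWV'.trans hV'₁))
  have hKH : K.fixingSubgroup ≤ H := (hWV.trans hV₁).trans hU₁H
  have ha1 : a 1 = 0 := by simpa using hcoc 1 1
  have hr : ∀ (g s : H), (s : Γ) ∈ K.fixingSubgroup → a (g * s) = a g := fun g s hs =>
    hlev g s (hV₂ (hWV hs))
  have hl : ∀ (g s : H), (s : Γ) ∈ K.fixingSubgroup → a (s * g) = a g := fun g s hs => by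
    rw [show s * g = g * (g⁻¹ * s * g) by group, hr]
    simpa using (normal_fixingSubgroup K).conj_mem _ hs (g : Γ)⁻¹
  have hmem : ∀ g : H, a g ∈ CFix S K := fun g σ hσ => by
    have h0 : a ⟨σ, hKH hσ⟩ = 0 := by simpa [ha1] using hr 1 ⟨σ, hKH hσ⟩ hσ
    have h := hcoc ⟨σ, hKH hσ⟩ g
    rw [hl g _ hσ, h0, add_zero] at h
    exact h.symm
  have hymem : y ∈ CFix S K := fun σ hσ => hy₄ σ (hV'₂ (hWV' hσ))
  let Hb : Subgroup (LevelGroup K) := H.map (toLevel K)
  have hlift : ∀ g : Hb, ∃ s : H, toLevel K (s : Γ) = g := fun g => by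
    obtain ⟨s, hs, e⟩ := g.2
    exact ⟨⟨s, hs⟩, e⟩
  choose s hs using hlift
  let L := levelClass K hSne hK
  let b : Hb → ClassMod K S := fun g => L ⟨a (s g), hmem _⟩
  have hb0 : ∀ (g : Hb) (t : H), toLevel K (t : Γ) = g → L ⟨a t, hmem t⟩ = b g := fun g t ht => by
    refine congrArg L (Subtype.ext ?_)
    show a t = a (s g)
    rw [show t = s g * ((s g)⁻¹ * t) by group, hr]
    exact QuotientGroup.eq.mp ((hs g).trans ht.symm)
  obtain ⟨x, hx⟩ := exists_d0_eq_of_pgroups hu.h1 Hb b (fun g h => by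
      rw [← hb0 (g * h) (s g * s h) (by rw [Subgroup.coe_mul, map_mul, hs, hs]; rfl), ← hs g,
        toLevel_smul_classMod, ← levelClass_smul, ← map_add]
      exact congrArg L (Subtype.ext (hcoc (s g) (s h))))
    (L ⟨y, hymem⟩) (fun g => by
      rw [← hs g, toLevel_smul_classMod, ← levelClass_smul, ← map_sub, ← map_nsmul]
      exact congrArg L (Subtype.ext (hy (s g))))
  obtain ⟨n, hn, x', hx'⟩ := exists_levelClass_eq_nsmul (hS := hSne) (hK := hK) hp hpS x
  have hna : ∀ g : H, (g : Γ) • (x' : CMod S) - x' = n • a g := fun g => by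
    have e : L (⟨(g : Γ) • (x' : CMod S), smul_mem_CFix K _ x'.2⟩ - x') =
        L (n • ⟨a g, hmem g⟩) := by
      rw [map_sub, levelClass_smul, map_nsmul, hx',
        hb0 ⟨toLevel K (g : Γ), Subgroup.mem_map_of_mem _ g.2⟩ g rfl, smul_comm, ← nsmul_sub]
      congr 1
      exact hx ⟨toLevel K (g : Γ), Subgroup.mem_map_of_mem _ g.2⟩
    exact congrArg Subtype.val (levelClass_injective e)
  obtain ⟨c, d, hcd⟩ := Int.isCoprime_iff_nat_coprime.2
    (by simpa using hp.coprime_iff_not_dvd.2 hn : Nat.Coprime (p : ℤ).natAbs (n : ℤ).natAbs)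
  refine ⟨c • y + d • (x' : CMod S), fun g => ?_⟩
  calc (g : Γ) • (c • y + d • (x' : CMod S)) - (c • y + d • (x' : CMod S))
      = c • ((g : Γ) • y - y) + d • ((g : Γ) • (x' : CMod S) - x') := by
        simp only [smul_add, smul_comm (g : Γ) c, smul_comm (g : Γ) d, zsmul_sub]
        abel
    _ = a g := by
        rw [hy, hna, ← natCast_zsmul, ← natCast_zsmul, ← mul_smul, ← mul_smul, ← add_zsmul, hcd,
          one_zsmul]

end Fermat.Agent.ClassField.S55
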