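import Fermat.Agent.ClassField.S55.Final.Compare
import Fermat.Agent.ClassField.Idele.CosetProd

/-!
# S55 assembly: norms are trivial at a level given by the existence theorem

If the norms from `K` to `K₀` land in `p`-th powers times classes of `S`-ideles, then the norms of
`Hom(R, classes of K)` lie in the trivial part, as `Gal(K/K₀)` acts trivially on `R`.
-/

set_option autoImplicit false
set_option linter.unusedSectionVars false

noncomputable section

open scoped Fermat.Agent.ClassField

namespace Fermat.Agent.ClassField.S55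

open Idele IntermediateField

local notation "Qb" => AlgebraicClosure ℚ
local notation "Γ" => (AlgebraicClosure ℚ ≃ₐ[ℚ] AlgebraicClosure ℚ)

/-- A sum over coset representatives of an element fixed by the preimage of `H` is invariant. -/
theorem smul_sum_lift {A G X : Type*} [Group A] [Group G] [AddCommGroup X] [DistribMulAction A X]
    (π : A →* G) (H : Subgroup G) [Fintype (G ⧸ H)] (l : G ⧸ H → A)
    (hl : ∀ c, (π (l c) : G ⧸ H) = c) {x : X} (hx : ∀ a, π a ∈ H → a • x = x) (σ : A) :
    σ • ∑ c, l c • x = ∑ c, l c • x := by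
  rw [Finset.smul_sum]
  refine Fintype.sum_equiv (MulAction.toPerm (π σ)) _ _ fun c => ?_
  rw [MulAction.toPerm_apply, ← mul_smul]
  have h : π ((l (π σ • c))⁻¹ * (σ * l c)) ∈ H := by
    rw [map_mul, map_inv, map_mul, ← QuotientGroup.eq, hl]
    conv_lhs => rw [← hl c]
    rfl
  conv_rhs => rw [← hx _ h, ← mul_smul, mul_inv_cancel_left]

namespace Presentation

variable {S : Finset Nat.Primes} {p : ℕ} [Fact p.Prime] {M N P R Y : Type*} [AddCommGroup M]
  [DistribMulAction Γ M] [AddCommGroup N] [DistribMulAction Γ N] [AddCommGroup P]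
  [DistribMulAction Γ P] [AddCommGroup R] [DistribMulAction Γ R] [MulAction Γ Y]
  {D : Presentation S p M N P R Y}
  {K : IntermediateField ℚ Qb} [Normal ℚ K] [FiniteDimensional ℚ K]
  [DistribMulAction (LevelGroup K) R] [DistribMulAction (LevelGroup K) P]
  [DistribMulAction (LevelGroup K) N] [MulAction (LevelGroup K) Y]
  [IsLevelCompat K R] [IsLevelCompat K P] [IsLevelCompat K N] [IsLevelCompat K Y]

/-- The class of an invariant homomorphism into the ideles is in the trivial part. -/
theorem mem_levelTrivSub_of_classMap (hS : S.Nonempty) (hK : K.IsUnramifiedOutside S)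
    (hKU : K.fixingSubgroup ≤ D.U₀) {jj : CHom R (JMod S)} (hjj : ∀ σ : Γ, σ • jj = jj)
    {X : CHom R (ClassMod K S)} (hX : ∀ r, classVal (X r) =
      Additive.ofMul (classMap (S : Set Nat.Primes) (((jj r).toMul : sIdeles S) : IdeleGroup))) :
    X ∈ D.levelTrivSub K := by
  choose φ hφfix hφ using fun q : ↥S => exists_localPart hKU (q : Nat.Primes) hjj
  have e : X = ∑ q : ↥S, cores (decGroup K (q : Nat.Primes))
      (CHom.post (locIncl K S (q : Nat.Primes)) (φ q) : CHom R (ClassMod K S)) :=
    CHom.ext' fun r => by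
      rw [CHom.sum_apply]
      refine Eq.trans (classVal_injective ?_) (levelClass_eq_sum hS hK hKU hjj φ hφ r)
      rw [hX]
      rfl
  rw [e]
  exact sum_mem fun q _ => AddSubgroup.subset_closure (Or.inr ⟨q, φ q, hφfix q, rfl⟩)

variable [Module.Free ℤ R] [Module.Finite ℤ R]

/-- Norms lie in the trivial part, at a level with small norm group. -/
theorem normSum_mem_levelTrivSub (hS : S.Nonempty) (hK : K.IsUnramifiedOutside S)
    {K₀ : IntermediateField ℚ Qb} [FiniteDimensional ℚ K₀] (h₀ : K₀ ≤ K)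
    (hU : K₀.fixingSubgroup ≤ D.U₀)
    (hnorm : normClasses (S : Set Nat.Primes) K₀ K ≤
      (classesOf (S : Set Nat.Primes) K₀).map (powMonoidHom p) ⊔
        ((idelesOf K₀ ⊓ sIdeles S).map (classMap (S : Set Nat.Primes))))
    (y : CHom R (ClassMod K S)) : normSum (LevelGroup K) y ∈ D.levelTrivSub K := by
  classical
  have hle : K.fixingSubgroup ≤ K₀.fixingSubgroup := fixingSubgroup_antitone h₀
  have hKU : K.fixingSubgroup ≤ D.U₀ := hle.trans hU
  let H : Subgroup (LevelGroup K) := K₀.fixingSubgroup.map (toLevel K)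
  have hH : ∀ σ : Γ, toLevel K σ ∈ H → σ ∈ K₀.fixingSubgroup := by
    rintro σ ⟨t, ht, e⟩
    rw [← mul_inv_cancel_left t σ]
    exact mul_mem ht (hle (QuotientGroup.eq.1 e))
  -- `H` acts trivially on `R`
  have hHR : ∀ g ∈ H, ∀ r : R, g • r = r := by
    rintro _ ⟨t, ht, rfl⟩ r
    rw [toLevel_smul, D.fixed_R (hU ht)]
  -- the norm from `H` is the relative norm
  let := Fintype.ofFinite (K₀.fixingSubgroup ⧸ K.fixingSubgroup.subgroupOf K₀.fixingSubgroup)
  have hrel : ∀ c : ClassMod K S, classVal (normSum H c) =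
      Additive.ofMul (relNorm K₀ K (c.toMul : IdeleClass (S : Set Nat.Primes))) := by
    intro c
    let f : K₀.fixingSubgroup ⧸ K.fixingSubgroup.subgroupOf K₀.fixingSubgroup → H := fun q =>
      ⟨toLevel K ((q.out : K₀.fixingSubgroup) : Γ), _, q.out.2, rfl⟩
    have hf : Function.Bijective f := by
      refine ⟨fun a b h => ?_, fun g => ?_⟩
      · rw [← QuotientGroup.out_eq' a, ← QuotientGroup.out_eq' b, QuotientGroup.eq,
          Subgroup.mem_subgroupOf]
        exact QuotientGroup.eq.1 (congrArg Subtype.val h)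
      · obtain ⟨t, ht, e⟩ := g.2
        refine ⟨QuotientGroup.mk ⟨t, ht⟩, Subtype.ext ?_⟩
        obtain ⟨s, hs⟩ := QuotientGroup.mk_out_eq_mul
          (K.fixingSubgroup.subgroupOf K₀.fixingSubgroup) (⟨t, ht⟩ : K₀.fixingSubgroup)
        show toLevel K ((Quotient.out (QuotientGroup.mk (⟨t, ht⟩ : K₀.fixingSubgroup)) :
          K₀.fixingSubgroup) : Γ) = g
        rw [hs, Subgroup.coe_mul, map_mul, e]
        exact mul_eq_left.2 ((QuotientGroup.eq_one_iff _).2 s.2)
    show classVal (∑ h : H, h • c) = _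
    rw [map_sum, relNorm, cosetProd, finprod_eq_prod_of_fintype, ofMul_prod]
    exact (Fintype.sum_equiv (Equiv.ofBijective f hf) _ _ fun q => rfl).symm
  have hNr : ∀ r, (normSum H y) r = normSum H (y r) := fun r => by
    show (∑ h : H, h • y) r = ∑ h : H, h • y r
    rw [CHom.sum_apply]
    refine Finset.sum_congr rfl fun h _ => ?_
    rw [Subgroup.smul_def, Subgroup.smul_def, CHom.smul_apply, hHR _ (inv_mem h.2) r]
  -- decompose on a basis
  let v := Module.Free.chooseBasis ℤ R
  have hdec : ∀ i, ∃ (a : ClassMod K S) (j : JMod S),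
      (∀ σ ∈ K₀.fixingSubgroup, σ • a = a) ∧ (∀ σ ∈ K₀.fixingSubgroup, σ • j = j) ∧
      classVal (normSum H (y (v i))) = p • classVal a +
        Additive.ofMul (classMap (S : Set Nat.Primes) ((j.toMul : sIdeles S) : IdeleGroup)) := by
    intro i
    obtain ⟨_, ⟨a, ha, rfl⟩, _, ⟨j, ⟨hj₀, hjS⟩, rfl⟩, hab⟩ :=
      Subgroup.mem_sup.1 (hnorm (Subgroup.subset_closure
        ⟨_, ((y (v i)).toMul : classesOf (S : Set Nat.Primes) K).2, rfl⟩))
    obtain ⟨f, hf, rfl⟩ := ha
    have hfK : f ∈ idelesOf K := fun σ hσ => hf σ (hle hσ)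
    refine ⟨classOf K S f hfK, Additive.ofMul ⟨j, hjS⟩, fun σ hσ => ?_, fun σ hσ => ?_, ?_⟩
    · refine congrArg Additive.ofMul (Subtype.ext ?_)
      show σ • classMap (S : Set Nat.Primes) f = classMap (S : Set Nat.Primes) f
      rw [smul_classMap, hf σ hσ]
    · exact congrArg Additive.ofMul (Subtype.ext (hj₀ σ hσ))
    · rw [hrel, ← hab]
      rfl
  choose a j ha hj hsum using hdec
  let A₀ : CHom R (ClassMod K S) := ⟨(v.constr ℤ a).toAddMonoidHom⟩
  let J₀ : CHom R (JMod S) := ⟨(v.constr ℤ j).toAddMonoidHom⟩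
  have hA₀ : ∀ g ∈ H, g • A₀ = A₀ := fun g hg => CHom.ext (by
    refine AddMonoidHom.toIntLinearMap_injective (v.ext fun i => ?_)
    show (g • A₀) (v i) = A₀ (v i)
    rw [CHom.smul_apply, hHR _ (inv_mem hg)]
    obtain ⟨t, ht, rfl⟩ := hg
    show toLevel K t • (v.constr ℤ a) (v i) = (v.constr ℤ a) (v i)
    rw [v.constr_basis, toLevel_smul, ha i t ht])
  have hJ₀ : ∀ σ : Γ, toLevel K σ ∈ H → σ • J₀ = J₀ := fun σ hσ => CHom.ext (by
    refine AddMonoidHom.toIntLinearMap_injective (v.ext fun i => ?_)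
    show (σ • J₀) (v i) = J₀ (v i)
    rw [CHom.smul_apply, D.fixed_R (hU (inv_mem (hH σ hσ)))]
    show σ • (v.constr ℤ j) (v i) = (v.constr ℤ j) (v i)
    rw [v.constr_basis, hj i σ (hH σ hσ)])
  have hNy : ∀ r, classVal ((normSum H y) r) = p • classVal (A₀ r) +
      Additive.ofMul (classMap (S : Set Nat.Primes) (((J₀ r).toMul : sIdeles S) : IdeleGroup)) := by
    let cm : JMod S →+ Additive (IdeleClass (S : Set Nat.Primes)) :=
      MonoidHom.toAdditive ((classMap (S : Set Nat.Primes)).comp (sIdeles S).subtype)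
    have e : classVal.comp (normSum H y).hom = p • classVal.comp A₀.hom + cm.comp J₀.hom := by
      refine AddMonoidHom.toIntLinearMap_injective (v.ext fun i => ?_)
      show classVal ((normSum H y) (v i)) = p • classVal ((v.constr ℤ a) (v i)) +
        cm ((v.constr ℤ j) (v i))
      rw [v.constr_basis, v.constr_basis, hNr, hsum]
      rfl
    exact fun r => DFunLike.congr_fun e r
  -- sum over the cosets of `H`
  let := Fintype.ofFinite (LevelGroup K ⧸ H)
  let l : LevelGroup K ⧸ H → Γ := fun c => liftLevel (Quotient.out c)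
  have hl : ∀ c, toLevel K (l c) = Quotient.out c := fun c => toLevel_liftLevel _
  have hl' : ∀ c, (toLevel K (l c) : LevelGroup K ⧸ H) = c := fun c => by
    rw [hl, QuotientGroup.out_eq']
  let A' : CHom R (ClassMod K S) := ∑ c : LevelGroup K ⧸ H, Quotient.out c • A₀
  let J' : CHom R (JMod S) := ∑ c : LevelGroup K ⧸ H, l c • J₀
  have hA' : ∀ g : LevelGroup K, g • A' = A' := fun g =>
    smul_sum_lift (MonoidHom.id _) H (fun c => Quotient.out c) (fun c => QuotientGroup.out_eq' c)
      hA₀ g
  have hJ' : ∀ σ : Γ, σ • J' = J' := fun σ => smul_sum_lift (toLevel K) H l hl' hJ₀ σ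
  obtain ⟨pr, hpr, hprσ⟩ := D.exists_pHom
  have hpA : p • A' ∈ D.levelTrivSub K :=
    AddSubgroup.subset_closure (Or.inl ⟨⟨A'.hom.comp pr⟩, (CHom.fixed_iff _).2 fun g x => by
      obtain ⟨σ, rfl⟩ := QuotientGroup.mk'_surjective K.fixingSubgroup g
      show A' (pr (toLevel K σ • x)) = toLevel K σ • A' (pr x)
      rw [← (CHom.fixed_iff A').1 hA', toLevel_smul, toLevel_smul, hprσ], CHom.ext' fun r => by
      show A' (pr (D.incl r)) = _
      rw [show pr (D.incl r) = p • r from D.incl_injective (by rw [hpr, map_nsmul]), map_nsmul,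
        CHom.nsmul_apply]⟩)
  have hrest : normSum (LevelGroup K) y - p • A' ∈ D.levelTrivSub K := by
    refine mem_levelTrivSub_of_classMap hS hK hKU hJ' fun r => ?_
    let cm : JMod S →+ Additive (IdeleClass (S : Set Nat.Primes)) :=
      MonoidHom.toAdditive ((classMap (S : Set Nat.Primes)).comp (sIdeles S).subtype)
    show _ = cm (J' r)
    have hcm : ∀ (σ : Γ) (x : JMod S), cm (σ • x) = Additive.ofMul (σ • (cm x).toMul) :=
      fun σ x => rfl
    rw [CHom.sub_apply, CHom.nsmul_apply, normSum_eq_sum_normSum H, CHom.sum_apply, CHom.sum_apply,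
      CHom.sum_apply, map_sub, map_nsmul, map_sum, map_sum, map_sum, Finset.smul_sum,
      ← Finset.sum_sub_distrib]
    refine Finset.sum_congr rfl fun c _ => ?_
    rw [CHom.smul_apply, CHom.smul_apply, CHom.smul_apply]
    conv_lhs => rw [← hl c, ← map_inv, toLevel_smul, toLevel_smul, toLevel_smul]
    rw [hcm]
    have hcv : ∀ (σ : Γ) (x : ClassMod K S), classVal (σ • x) =
        Additive.ofMul (σ • (classVal x).toMul) := fun σ x => rfl
    rw [hcv, hcv, hNy, toMul_add, toMul_nsmul, smul_mul', smul_pow', ofMul_mul, ofMul_pow,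
      add_sub_cancel_left]
    rfl
  have := add_mem hrest hpA
  rwa [sub_add_cancel] at this

end Presentation

end Fermat.Agent.ClassField.S55
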