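import Fermat.Agent.ClassField.S55.Final.Perm
import Fermat.Agent.ClassField.S55.Final.Norm
import Fermat.Agent.ClassField.S55.Bridge.Sha1
import Fermat.Agent.ClassField.S55.Bridge.Sha2Rep

/-!
# S55 assembly: Poitou–Tate duality for `Ш¹(M*)` and `Ш²(M)` from class formations

`exists_pairing_of_classFormation`: the frozen statement S55, given the class formations at the
levels unramified outside `S` and the existence theorem.
-/

set_option autoImplicit false

noncomputable section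

open CategoryTheory Module groupCohomology ExtCitation
open scoped Fermat.Agent.ClassField Fermat.Agent.ClassField.S55

namespace Fermat.Agent.ClassField.S55

open Idele IntermediateField

local notation "Qb" => AlgebraicClosure ℚ
local notation "Γ" => (AlgebraicClosure ℚ ≃ₐ[ℚ] AlgebraicClosure ℚ)

/-- Two finite vector spaces over `ZMod p` with the same number of elements are in perfect
duality. -/
theorem exists_perfect_pairing {p : ℕ} [Fact p.Prime] {V W : Type*} [AddCommGroup V]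
    [Module (ZMod p) V] [AddCommGroup W] [Module (ZMod p) W] [Finite V] [Finite W]
    (h : Nat.card V = Nat.card W) :
    ∃ B : V →ₗ[ZMod p] W →ₗ[ZMod p] ZMod p,
      (∀ y, (∀ x, B y x = 0) → y = 0) ∧ (∀ x, (∀ y, B y x = 0) → x = 0) := by
  have hfr : finrank (ZMod p) V = finrank (ZMod p) (Dual (ZMod p) W) := by
    rw [Subspace.dual_finrank_eq]
    rw [Module.natCard_eq_pow_finrank (K := ZMod p),
      Module.natCard_eq_pow_finrank (K := ZMod p) (V := W), Nat.card_zmod] at h
    exact Nat.pow_right_injective (Fact.out : p.Prime).two_le h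
  let e : V ≃ₗ[ZMod p] Dual (ZMod p) W := LinearEquiv.ofFinrankEq V (Dual (ZMod p) W) hfr
  refine ⟨e.toLinearMap, fun y hy => e.map_eq_zero_iff.1 (LinearMap.ext hy), fun x hx =>
    (Module.forall_dual_apply_eq_zero_iff (ZMod p) x).1 fun φ => ?_⟩
  obtain ⟨y, rfl⟩ := e.surjective φ
  exact hx y

set_option maxHeartbeats 1000000 in
/-- Poitou–Tate duality from class formations and the existence theorem. -/
theorem exists_pairing_of_classFormation {p : ℕ} [Fact p.Prime] (hp2 : p ≠ 2)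
    (S : Finset Nat.Primes) (hpS : (⟨p, Fact.out⟩ : Nat.Primes) ∈ S)
    (M : Rep (ZMod p) Γ) [FiniteDimensional (ZMod p) M]
    (hsm : ∀ m : M, ∃ F : IntermediateField ℚ Qb, FiniteDimensional ℚ F ∧
      ∀ s ∈ F.fixingSubgroup, M.ρ s m = m)
    (hMur : ∀ q : Nat.Primes, q ∉ S → ∀ A : ValuationSubring Qb,
      A.LiesOverPrime (q : ℕ) → ∀ g ∈ A.inertiaSubgroupIn ℚ, M.ρ g = 1)
    (hform : ∀ (K : IntermediateField ℚ Qb) [Normal ℚ K] [FiniteDimensional ℚ K],
      K.IsUnramifiedOutside S → (∃ ζ : Qb, IsPrimitiveRoot ζ p ∧ ζ ∈ K) →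
        HasClassFormation S p K)
    (hexist : ∀ (K₀ : IntermediateField ℚ Qb) [Normal ℚ K₀] [FiniteDimensional ℚ K₀],
      K₀.IsUnramifiedOutside S → (∃ ζ : Qb, IsPrimitiveRoot ζ p ∧ ζ ∈ K₀) →
        ∃ K : IntermediateField ℚ Qb, FiniteDimensional ℚ K ∧ Normal ℚ K ∧ K₀ ≤ K ∧
          K.IsUnramifiedOutside S ∧
          normClasses (S : Set Nat.Primes) K₀ K ≤
            (classesOf (S : Set Nat.Primes) K₀).map (powMonoidHom p) ⊔
              ((idelesOf K₀ ⊓ sIdeles S).map (classMap (S : Set Nat.Primes)))) :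
    ∃ B : sha₁ S (M.dualTwist (cycloChar p)) →ₗ[ZMod p] sha₂ S M →ₗ[ZMod p] ZMod p,
      (∀ y, (∀ x, B y x = 0) → y = 0) ∧ (∀ x, (∀ y, B y x = 0) → x = 0) := by
  classical
  have hp : p.Prime := Fact.out
  have hS : S.Nonempty := ⟨_, hpS⟩
  obtain ⟨U₀, hU₀, hρ, hzeta⟩ := exists_level_fixing M hpS hsm hMur
  obtain ⟨mu, hmu⟩ := exists_mu (S := S) M hpS
  have hfinN : Finite (M.dualTwist (cycloChar p)) := Module.finite_of_finite (ZMod p)
  have hfintype : Fintype (M.dualTwist (cycloChar p)) := Fintype.ofFinite _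
  have hfixN : ∀ u ∈ U₀, ∀ n : M.dualTwist (cycloChar p), u • n = n := fun u hu n =>
    LinearMap.congr_fun (hρ u hu).2.1 n
  have hpN : ∀ n : M.dualTwist (cycloChar p), p • n = 0 := ZModModule.char_nsmul_eq_zero p
  let D := permPresentation U₀ hU₀ hfixN mu hmu (ZModModule.char_nsmul_eq_zero p) hpN
    (fun q hq => by
      rwa [show q = (⟨p, hp⟩ : Nat.Primes) from
        Subtype.ext ((Nat.prime_dvd_prime_iff_eq q.2 hp).mp hq)])
  have hC : CTorsion S p := cTorsion_of_inputs hpS hform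
  have hsha2 := natCard_sha2 M (repAction_smul M) D hp2 hC
  obtain ⟨e⟩ := (D.ptDiagram hC).nonempty_equiv
  -- every level is contained in one where the duality holds
  have key : ∀ F : IntermediateField ℚ Qb, F.IsUnramifiedOutside S →
      ∃ (K : IntermediateField ℚ Qb) (_ : Normal ℚ K) (_ : FiniteDimensional ℚ K)
        (_ : DistribMulAction (LevelGroup K) (M.dualTwist (cycloChar p))),
        F ≤ K ∧ K.IsUnramifiedOutside S ∧
        (∀ (σ : Γ) (a : M.dualTwist (cycloChar p)),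
          toLevel K σ • a = (M.dualTwist (cycloChar p)).ρ σ a) ∧
        Finite (Sha1Level S (M.dualTwist (cycloChar p)) K) ∧
        Nat.card (Sha1Level S (M.dualTwist (cycloChar p)) K) = Nat.card (sha₂ S M) := by
    intro F hF
    obtain ⟨F', hle, hF', hF'n⟩ := exists_normal_isUnramifiedOutside hF
    obtain ⟨W, hW, hWU, hWF⟩ :=
      (levels S).directed U₀ hU₀ _ ⟨F', hF', hF'n, rfl⟩
    obtain ⟨K₀, hK₀f, hK₀n, hK₀, rfl⟩ := exists_level_field hW
    obtain ⟨K, hKf, hKn, h₀, hK, hnorm⟩ := hexist K₀ hK₀ (hzeta K₀ hWU)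
    have hle' : K.fixingSubgroup ≤ K₀.fixingSubgroup := fixingSubgroup_antitone h₀
    have hKU : K.fixingSubgroup ≤ U₀ := hle'.trans hWU
    let act : DistribMulAction (LevelGroup K) (M.dualTwist (cycloChar p)) :=
      descendAction K.fixingSubgroup fun u hu n => hfixN u (hKU hu) n
    have hcN : IsLevelCompat K (M.dualTwist (cycloChar p)) := ⟨fun _ _ => rfl⟩
    have hcP : IsLevelCompat K (PMod (M.dualTwist (cycloChar p))) := ⟨fun σ f =>
      PMod.ext (funext fun y => by
        rw [PMod.smul_val, PMod.smul_val, ← map_inv, toLevel_smul])⟩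
    have hcR : IsLevelCompat K (PKer (M.dualTwist (cycloChar p))) := ⟨fun σ r =>
      Subtype.ext (toLevel_smul (K := K) σ (r : PMod (M.dualTwist (cycloChar p))))⟩
    obtain ⟨u, hu, hloc⟩ := hform K hK (hzeta K hKU)
    choose uv huv hcompat using fun q : ↥S => hloc (q : Nat.Primes) q.2
    obtain ⟨hfin, hcard⟩ := finite_duality p hu (uv := uv) huv
      (fun q : ↥S => locIncl K S (q : Nat.Primes)) hcompat (D.toFin K)
      (Presentation.normSum_mem_levelTrivSub hS hK h₀ hWU hnorm)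
    have htarget := Presentation.natCard_target_quotient (D := D) hC hS hpS hK hKU
    refine ⟨K, hKn, hKf, act, le_trans hle (le_trans (le_of_fixingSubgroup_le hWF) h₀), hK,
      fun σ a => rfl, ?_, ?_⟩
    · refine Nat.finite_of_card_ne_zero ?_
      rw [← hcard]
      exact Nat.card_pos.ne'
    · rw [hsha2, ← Nat.card_congr e.toEquiv, htarget]
      exact hcard.symm
  obtain ⟨K₁, _, _, _, -, hK₁, -, hfin₁, hcard₁⟩ := key ⊥ (isUnramifiedOutside_bot S)
  have hfin2 : Finite (sha₂ S M) := Nat.finite_of_card_ne_zero (hcard₁ ▸ Nat.card_pos.ne')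
  obtain ⟨hfin1, hcard⟩ := natCard_sha1_eq (S := S) (A := M.dualTwist (cycloChar p))
    (m := Nat.card (sha₂ S M)) hp2 hpN ⊥ (isUnramifiedOutside_bot S) fun F hF => by
      obtain ⟨K, h1, h2, h3, h4, h5⟩ := key F hF
      exact ⟨K, h1, h2, h3, ⟨bot_le, h4⟩, h5⟩
  exact exists_perfect_pairing hcard

/-- Poitou–Tate duality from the bundled inputs. -/
theorem exists_pairing_of_inputs {p : ℕ} [Fact p.Prime] (hp2 : p ≠ 2) (S : Finset Nat.Primes)
    (hpS : (⟨p, Fact.out⟩ : Nat.Primes) ∈ S) (M : Rep (ZMod p) Γ) [FiniteDimensional (ZMod p) M]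
    (hsm : ∀ m : M, ∃ F : IntermediateField ℚ Qb, FiniteDimensional ℚ F ∧
      ∀ s ∈ F.fixingSubgroup, M.ρ s m = m)
    (hMur : ∀ q : Nat.Primes, q ∉ S → ∀ A : ValuationSubring Qb,
      A.LiesOverPrime (q : ℕ) → ∀ g ∈ A.inertiaSubgroupIn ℚ, M.ρ g = 1)
    (hin : PTInputs S p) :
    ∃ B : sha₁ S (M.dualTwist (cycloChar p)) →ₗ[ZMod p] sha₂ S M →ₗ[ZMod p] ZMod p,
      (∀ y, (∀ x, B y x = 0) → y = 0) ∧ (∀ x, (∀ y, B y x = 0) → x = 0) :=
  exists_pairing_of_classFormation hp2 S hpS M hsm hMur hin.classFormation hin.existence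

end Fermat.Agent.ClassField.S55
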