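import Fermat.Agent.ClassField.S55.Bridge.Diagram
import Fermat.Agent.ClassField.S55.Final.Kappa
import Fermat.Prelude.Def_ExtCitation_KummerBridge
import Fermat.Prelude.Def_GroupCohomology_Selmer

/-!
# S55 assembly: the permutation presentation of the dual of a Galois representation

For a finite `N` the free group on its elements presents it; for `N` the twisted dual of `M` the
pairing with a root of unity identifies `M` with the homomorphisms `N → E`.
-/

set_option autoImplicit false

noncomputable section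

namespace Fermat.Agent.ClassField.S55

open Idele IntermediateField

local notation "Qb" => AlgebraicClosure ℚ
local notation "Γ" => (AlgebraicClosure ℚ ≃ₐ[ℚ] AlgebraicClosure ℚ)

/-! ### permutation modules -/

/-- Integer functions, with translation of the variable. -/
@[ext]
structure PMod (Y : Type*) where
  /-- the function -/
  val : Y → ℤ

namespace PMod

variable {Y : Type*}

instance : Add (PMod Y) := ⟨fun f f' => ⟨f.val + f'.val⟩⟩
instance : Zero (PMod Y) := ⟨⟨0⟩⟩
instance : Neg (PMod Y) := ⟨fun f => ⟨-f.val⟩⟩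
instance : Sub (PMod Y) := ⟨fun f f' => ⟨f.val - f'.val⟩⟩

instance : AddCommGroup (PMod Y) where
  add_assoc _ _ _ := PMod.ext (add_assoc _ _ _)
  zero_add _ := PMod.ext (zero_add _)
  add_zero _ := PMod.ext (add_zero _)
  add_comm _ _ := PMod.ext (add_comm _ _)
  sub_eq_add_neg _ _ := PMod.ext (sub_eq_add_neg _ _)
  neg_add_cancel _ := PMod.ext (neg_add_cancel _)
  nsmul := nsmulRec
  zsmul := zsmulRec

instance {G : Type*} [Group G] [MulAction G Y] : DistribMulAction G (PMod Y) where
  smul g f := ⟨fun y => f.val (g⁻¹ • y)⟩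
  one_smul f := PMod.ext (funext fun y => by
    show f.val ((1 : G)⁻¹ • y) = f.val y
    rw [inv_one, one_smul])
  mul_smul g h f := PMod.ext (funext fun y => by
    show f.val ((g * h)⁻¹ • y) = f.val (h⁻¹ • g⁻¹ • y)
    rw [mul_inv_rev, mul_smul])
  smul_zero _ := rfl
  smul_add _ _ _ := rfl

theorem smul_val {G : Type*} [Group G] [MulAction G Y] (g : G) (f : PMod Y) (y : Y) :
    (g • f).val y = f.val (g⁻¹ • y) := rfl

/-- The underlying function, linearly. -/
def valEquiv : PMod Y ≃ₗ[ℤ] (Y → ℤ) :=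
  ({ toFun := PMod.val, invFun := PMod.mk, left_inv := fun _ => rfl, right_inv := fun _ => rfl,
     map_add' := fun _ _ => rfl } : PMod Y ≃+ (Y → ℤ)).toIntLinearEquiv

variable [Fintype Y]

/-- The permuted basis. -/
def basis : Module.Basis Y ℤ (PMod Y) := Module.Basis.ofEquivFun valEquiv

theorem basis_val [DecidableEq Y] (y : Y) : (basis y).val = Pi.single y (1 : ℤ) := by
  show valEquiv (basis y) = _
  rw [basis, Module.Basis.coe_ofEquivFun, LinearEquiv.apply_symm_apply]

theorem smul_basis {G : Type*} [Group G] [MulAction G Y] (g : G) (y : Y) :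
    g • (basis y : PMod Y) = basis (g • y) := by
  classical
  refine PMod.ext (funext fun z => ?_)
  rw [smul_val, basis_val, basis_val, Pi.single_apply, Pi.single_apply]
  simp only [inv_smul_eq_iff]

instance : Module.Free ℤ (PMod Y) := Module.Free.of_basis basis

instance : Module.Finite ℤ (PMod Y) := Module.Finite.of_basis basis

variable (N : Type*) [AddCommGroup N] [Fintype N]

/-- The evaluation `ℤ[N] → N`. -/
def eval : PMod N →+ N where
  toFun f := ∑ y : N, f.val y • y
  map_zero' := Finset.sum_eq_zero fun y _ => zero_zsmul y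
  map_add' f f' := by
    rw [← Finset.sum_add_distrib]
    exact Finset.sum_congr rfl fun y _ => add_zsmul y _ _

theorem eval_smul {G : Type*} [Group G] [DistribMulAction G N] (g : G) (f : PMod N) :
    eval N (g • f) = g • eval N f := by
  show ∑ y : N, (g • f).val y • y = g • ∑ y : N, f.val y • y
  rw [Finset.smul_sum]
  refine Fintype.sum_equiv (MulAction.toPerm g⁻¹) _ _ fun y => ?_
  rw [smul_val, MulAction.toPerm_apply, smul_comm g, smul_inv_smul]

theorem eval_basis (y : N) : eval N (basis y) = y := by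
  classical
  show ∑ z : N, (basis y).val z • z = y
  rw [Finset.sum_eq_single y (fun z _ hz => by rw [basis_val, Pi.single_eq_of_ne hz, zero_zsmul])
    (fun h => absurd (Finset.mem_univ y) h), basis_val, Pi.single_eq_same, one_zsmul]

theorem eval_surjective : Function.Surjective (eval N) := fun y => ⟨_, eval_basis N y⟩

end PMod

/-- The relations between the elements of a finite group. -/
abbrev PKer (N : Type*) [AddCommGroup N] [Fintype N] : Type _ := ↥(PMod.eval N).ker

section Ker

variable {N : Type*} [AddCommGroup N] [Fintype N]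

instance : Module.Finite ℤ (PKer N) :=
  Module.Finite.of_injective (PMod.eval N).ker.subtype.toIntLinearMap Subtype.val_injective

instance : Module.Free ℤ (PKer N) :=
  Module.Free.of_equiv (AddEquiv.refl (PKer N)).toIntLinearEquiv
    (M := ↥(AddSubgroup.toIntSubmodule (PMod.eval N).ker))

variable {G : Type*} [Group G] [DistribMulAction G N]

instance : DistribMulAction G (PKer N) where
  smul g r := ⟨g • (r : PMod N), by rw [AddMonoidHom.mem_ker, PMod.eval_smul, r.2, smul_zero]⟩
  one_smul r := Subtype.ext (one_smul G (r : PMod N))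
  mul_smul g h r := Subtype.ext (mul_smul g h (r : PMod N))
  smul_zero g := Subtype.ext (smul_zero g)
  smul_add g r r' := Subtype.ext (smul_add g (r : PMod N) (r' : PMod N))

end Ker

/-- The permutation presentation of a finite module killed by `p`. -/
def permPresentation {S : Finset Nat.Primes} {p : ℕ} {M N : Type*} [AddCommGroup M]
    [DistribMulAction Γ M] [AddCommGroup N] [DistribMulAction Γ N] [Fintype N] (U₀ : Subgroup Γ)
    (hU₀ : U₀ ∈ (levels S).carrier) (hfix : ∀ u ∈ U₀, ∀ n : N, u • n = n)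
    (mu : M →+[Γ] CHom N (EMod S)) (hmu : Function.Bijective mu) (hM : ∀ m : M, p • m = 0)
    (hN : ∀ n : N, p • n = 0) (hdvd : ∀ q : Nat.Primes, (q : ℕ) ∣ p → q ∈ S) :
    Presentation S p M N (PMod N) (PKer N) N where
  U₀ := U₀
  mem_levels := hU₀
  basis := PMod.basis
  smul_basis := PMod.smul_basis
  π :=
    { toFun := PMod.eval N
      map_smul' := fun g f => PMod.eval_smul N g f
      map_zero' := map_zero _
      map_add' := map_add _ }
  π_surjective := PMod.eval_surjective N
  incl :=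
    { toFun := Subtype.val
      map_smul' := fun _ _ => rfl
      map_zero' := rfl
      map_add' := fun _ _ => rfl }
  incl_injective := Subtype.val_injective
  exact x := ⟨fun h => ⟨⟨x, h⟩, rfl⟩, by rintro ⟨r, rfl⟩; exact r.2⟩
  fixed_P u hu x := PMod.ext (funext fun y => by rw [PMod.smul_val, hfix _ (inv_mem hu)])
  mu := mu
  mu_bijective := hmu
  p_smul_M := hM
  p_smul_N := hN
  dvd_mem := hdvd

/-! ### the twisted dual -/

/-- The action underlying a representation. -/
scoped instance repAction {k G : Type} [CommRing k] [Group G] (A : Rep k G) :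
    DistribMulAction G A where
  smul g m := A.ρ g m
  one_smul m := by show A.ρ 1 m = m; rw [map_one]; rfl
  mul_smul g h m := by show A.ρ (g * h) m = A.ρ g (A.ρ h m); rw [map_mul]; rfl
  smul_zero g := map_zero (A.ρ g)
  smul_add g m m' := map_add (A.ρ g) m m'

/-- The action on a twisted dual. -/
scoped instance dualTwistAction {k G : Type} [CommRing k] [Group G] (A : Rep k G) (χ : G →* kˣ) :
    DistribMulAction G (A.dualTwist χ) :=
  repAction (A.dualTwist χ)

theorem repAction_smul {k G : Type} [CommRing k] [Group G] (A : Rep k G) (g : G) (m : A) :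
    g • m = A.ρ g m := rfl

section Dual

open ExtCitation

variable {p : ℕ} [Fact p.Prime] {S : Finset Nat.Primes}

theorem apply_eq_pow_cycloChar {ζ : Qb} (hζ : IsPrimitiveRoot ζ p) (σ : Γ) :
    σ ζ = ζ ^ (cycloChar p σ : ZMod p).val :=
  haveI : NeZero p := ⟨(Fact.out : p.Prime).ne_zero⟩
  modularCyclotomicCharacter.spec Qb (card_rootsOfUnity_eq_self p) (σ : Qb ≃+* Qb)
    (t := (hζ.isUnit (NeZero.ne p)).unit)
    ((mem_rootsOfUnity _ _).mpr (Units.ext (by simpa using hζ.pow_eq_one)))

theorem cycloChar_eq_one_of_apply_eq {ζ : Qb} (hζ : IsPrimitiveRoot ζ p) {σ : Γ} (h : σ ζ = ζ) :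
    cycloChar p σ = 1 := by
  have : NeZero p := ⟨(Fact.out : p.Prime).ne_zero⟩
  refine Units.ext (ZMod.val_injective p ?_)
  rw [Units.val_one, ZMod.val_one]
  exact hζ.pow_inj (ZMod.val_lt _) (Fact.out : p.Prime).one_lt
    (((apply_eq_pow_cycloChar hζ σ).symm.trans h).trans (pow_one _).symm)

variable (M : Rep (ZMod p) Γ)

/-- A level fixing `M` and the `p`-th roots of unity. -/
theorem exists_level_fixing (hpS : (⟨p, Fact.out⟩ : Nat.Primes) ∈ S)
    [FiniteDimensional (ZMod p) M]
    (hsm : ∀ m : M, ∃ F : IntermediateField ℚ Qb, FiniteDimensional ℚ F ∧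
      ∀ s ∈ F.fixingSubgroup, M.ρ s m = m)
    (hMur : ∀ q : Nat.Primes, q ∉ S → ∀ A : ValuationSubring Qb,
      A.LiesOverPrime (q : ℕ) → ∀ g ∈ A.inertiaSubgroupIn ℚ, M.ρ g = 1) :
    ∃ U ∈ (levels S).carrier,
      (∀ u ∈ U, M.ρ u = 1 ∧ (M.dualTwist (cycloChar p)).ρ u = 1 ∧ cycloChar p u = 1) ∧
      ∀ F : IntermediateField ℚ Qb, F.fixingSubgroup ≤ U →
        ∃ ζ : Qb, IsPrimitiveRoot ζ p ∧ ζ ∈ F := by
  classical
  obtain ⟨Uz, hUz, hzeta⟩ := exists_level_zeta S (Fact.out : p.Prime) hpS
  obtain ⟨Z, hZf, hZn, hZ, rfl⟩ := exists_level_field hUz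
  obtain ⟨ζ, hζ, hζZ⟩ := hzeta Z le_rfl
  let b := Module.finBasis (ZMod p) M
  choose E hEf hE using fun i => hsm (b i)
  have hker : ∃ F' : IntermediateField ℚ Qb, FiniteDimensional ℚ F' ∧
      F'.fixingSubgroup ≤ (M.ρ : Γ →* _).ker := by
    refine ⟨⨆ i, E i, IntermediateField.finiteDimensional_iSup_of_finite, fun σ hσ => ?_⟩
    refine LinearMap.ext_on b.span_eq ?_
    rintro _ ⟨i, rfl⟩
    exact hE i σ (fixingSubgroup_antitone (le_iSup E i) hσ)
  obtain ⟨F', hF'f, hF'⟩ := hker
  let H : Subgroup Γ := (M.ρ : Γ →* _).ker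
  have hHo : IsOpen (H : Set Γ) :=
    Subgroup.isOpen_mono hF' (IntermediateField.fixingSubgroup_isOpen F')
  let F := fixedField H
  have hFfix : F.fixingSubgroup = H :=
    InfiniteGalois.fixingSubgroup_fixedField ⟨H, Subgroup.isClosed_of_isOpen H hHo⟩
  have hFd : FiniteDimensional ℚ F := by
    have hle : F ≤ F' := le_of_fixingSubgroup_le (hFfix ▸ hF')
    exact FiniteDimensional.of_injective (IntermediateField.inclusion hle).toLinearMap
      (IntermediateField.inclusion_injective hle)
  have hF : F.IsUnramifiedOutside S :=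
    ⟨hFd, fun q hq A hA g hg => by rw [hFfix]; exact hMur q hq A hA g hg⟩
  obtain ⟨L, hle, hL, hLn⟩ := exists_normal_isUnramifiedOutside (hF.sup hZ)
  refine ⟨_, ⟨L, hL, hLn, rfl⟩, fun u hu => ?_, fun F₁ hF₁ => hzeta F₁
    (hF₁.trans (fixingSubgroup_antitone (le_sup_right.trans hle)))⟩
  have h1 : M.ρ u = 1 := by
    have := fixingSubgroup_antitone (le_sup_left.trans hle) hu
    rwa [hFfix] at this
  have h2 : cycloChar p u = 1 := cycloChar_eq_one_of_apply_eq hζ
    ((IntermediateField.mem_fixingSubgroup_iff _ _).mp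
      (fixingSubgroup_antitone (le_sup_right.trans hle) hu) ζ hζZ)
  have h1' : M.ρ u⁻¹ = 1 := by
    have h := map_mul M.ρ u u⁻¹
    rwa [mul_inv_cancel, map_one, h1, one_mul, eq_comm] at h
  refine ⟨h1, LinearMap.ext fun f => ?_, h2⟩
  rw [Rep.dualTwist_ρ_apply, h2, h1', Units.val_one, one_smul]
  rfl

/-- `M ≅ Hom(N, E)` for the twisted dual `N`, by pairing with a root of unity. -/
theorem exists_mu [FiniteDimensional (ZMod p) M] (hpS : (⟨p, Fact.out⟩ : Nat.Primes) ∈ S) :
    ∃ mu : M →+[Γ] CHom (M.dualTwist (cycloChar p)) (EMod S), Function.Bijective mu := by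
  have : NeZero p := ⟨(Fact.out : p.Prime).ne_zero⟩
  have hp : p.Prime := Fact.out
  obtain ⟨U, hU, hzeta⟩ := exists_level_zeta S hp hpS
  obtain ⟨Z, hZf, hZn, hZ, rfl⟩ := exists_level_field hU
  obtain ⟨ζ, hζ, hζZ⟩ := hzeta Z le_rfl
  let ζu : Qbˣ := (hζ.isUnit hp.ne_zero).unit
  have hζu : (ζu : Qb) = ζ := rfl
  have hmem : ζu ∈ sUnits S := ⟨isFixed_of_mem hZ hζZ, fun ℓ _ ι => by
    refine (pow_eq_one_iff_of_nonneg (norm_nonneg _) hp.ne_zero).mp ?_
    rw [← norm_pow, ← map_pow, hζu, hζ.pow_eq_one, map_one, norm_one]⟩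
  let e : EMod S := Additive.ofMul ⟨ζu, hmem⟩
  have hval : ∀ n : ℕ, (((n • e).toMul : sUnits S) : Qbˣ).1 = ζ ^ n := fun n => by
    rw [toMul_nsmul]
    show ((((⟨ζu, hmem⟩ : sUnits S) ^ n : sUnits S) : Qbˣ) : Qb) = _
    rw [SubmonoidClass.coe_pow, Units.val_pow_eq_pow_val, hζu]
  have heq : ∀ x y : EMod S, ((x.toMul : sUnits S) : Qbˣ).1 = ((y.toMul : sUnits S) : Qbˣ).1 →
      x = y := fun x y h => Additive.toMul.injective (Subtype.ext (Units.ext h))
  have hpe : (zmultiplesHom (EMod S) e) (p : ℤ) = 0 := by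
    show (p : ℤ) • e = 0
    rw [natCast_zsmul]
    exact heq _ _ (by rw [hval, hζ.pow_eq_one]; rfl)
  let z : ZMod p →+ EMod S := ZMod.lift p ⟨zmultiplesHom (EMod S) e, hpe⟩
  have hz : ∀ a : ZMod p, z a = a.val • e := fun a => by
    conv_lhs => rw [← ZMod.natCast_zmod_val a, ← Int.cast_natCast (R := ZMod p)]
    rw [ZMod.lift_coe]
    exact natCast_zsmul e _
  have hzinj : Function.Injective z := fun a b h => ZMod.val_injective p (by
    have := congrArg (fun x : EMod S => ((x.toMul : sUnits S) : Qbˣ).1) h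
    simp only [hz, hval] at this
    exact hζ.pow_inj (ZMod.val_lt _) (ZMod.val_lt _) this)
  have hzσ : ∀ (σ : Γ) (a : ZMod p), σ • z a = z ((cycloChar p σ : ZMod p) * a) := fun σ a => by
    refine heq _ _ ?_
    rw [hz (_ * a), hval]
    show σ (((z a).toMul : sUnits S) : Qbˣ).1 = _
    rw [hz, hval, map_pow, apply_eq_pow_cycloChar hζ σ, ← pow_mul]
    rw [ZMod.val_mul]
    conv_lhs => rw [← Nat.mod_add_div ((cycloChar p σ : ZMod p).val * a.val) p, pow_add, pow_mul,
      hζ.pow_eq_one, one_pow, mul_one]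
  let F : M → CHom (M.dualTwist (cycloChar p)) (EMod S) := fun m =>
    ⟨z.comp (LinearMap.applyₗ (R := ZMod p) m).toAddMonoidHom⟩
  let mu : M →+[Γ] CHom (M.dualTwist (cycloChar p)) (EMod S) :=
    { toFun := F
      map_zero' := CHom.ext' fun φ => (congrArg z (map_zero (φ : Module.Dual (ZMod p) M))).trans
        (map_zero z)
      map_add' := fun m m' => CHom.ext' fun φ =>
        (congrArg z (map_add (φ : Module.Dual (ZMod p) M) m m')).trans (map_add z _ _)
      map_smul' := fun σ m => CHom.ext' fun φ => by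
        rw [CHom.smul_apply]
        show z ((φ : Module.Dual (ZMod p) M) (M.ρ σ m)) =
          σ • z (((M.dualTwist (cycloChar p)).ρ σ⁻¹ φ : Module.Dual (ZMod p) M) m)
        rw [Rep.dualTwist_ρ_apply, hzσ, inv_inv, LinearMap.smul_apply, smul_eq_mul,
          LinearMap.comp_apply, map_inv, ← mul_assoc, ← Units.val_mul, mul_inv_cancel,
          Units.val_one, one_mul] }
  refine ⟨mu, (injective_iff_map_eq_zero' mu).mpr fun m => ⟨fun h => ?_, fun h => h ▸ map_zero mu⟩,
    fun Φ => ?_⟩
  · refine (Module.forall_dual_apply_eq_zero_iff (ZMod p) m).mp fun φ => hzinj ?_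
    exact (congrArg (fun Φ : CHom (M.dualTwist (cycloChar p)) (EMod S) => Φ φ) h).trans
      (map_zero z).symm
  · have hrange : ∀ φ, ∃ a, z a = Φ φ := fun φ => by
      have h1 : p • Φ φ = 0 := (map_nsmul Φ.hom p φ).symm.trans
        ((congrArg Φ.hom (ZModModule.char_nsmul_eq_zero p φ)).trans (map_zero Φ.hom))
      have h2 : (((Φ φ).toMul : sUnits S) : Qbˣ).1 ^ p = 1 := by
        have := congrArg (fun x : EMod S => ((x.toMul : sUnits S) : Qbˣ).1) h1
        simpa using this
      obtain ⟨i, hi, he⟩ := hζ.eq_pow_of_pow_eq_one h2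
      exact ⟨(i : ZMod p), heq _ _ (by rw [hz, hval, ZMod.val_cast_of_lt hi, he])⟩
    choose l hl using hrange
    let lh : (M.dualTwist (cycloChar p)) →+ ZMod p := AddMonoidHom.mk' l fun φ φ' => hzinj (by
      rw [map_add, hl, hl, hl]
      exact map_add Φ.hom φ φ')
    obtain ⟨m, hm⟩ := (Module.evalEquiv (ZMod p) M).surjective (lh.toZModLinearMap p)
    refine ⟨m, CHom.ext' fun φ => ?_⟩
    show z ((φ : Module.Dual (ZMod p) M) m) = Φ φ
    rw [← hl φ]
    exact congrArg z (LinearMap.congr_fun hm φ)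

end Dual

end Fermat.Agent.ClassField.S55
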