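import Fermat.Agent.ClassField.S55.Final.Main
import Fermat.Agent.ClassField.S55.Final.FormationWrapper
import Fermat.Statements.S55

/-!
# S55 assembly: the frozen statement from the class formations of all classes
-/

set_option autoImplicit false

noncomputable section

open CategoryTheory Module groupCohomology ExtCitation
open scoped Fermat.Agent.ClassField Fermat.Agent.ClassField.S55

namespace Fermat.Agent.ClassField.S55

open IntermediateField

/-- S55, given the class formations of all classes. -/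
theorem pairing_of_univClassFormation {p : ℕ} [Fact p.Prime] (hp2 : p ≠ 2)
    (S : Finset Nat.Primes) (hpS : pPrime p ∈ S)
    (hform : ∀ (K : IntermediateField ℚ (AlgebraicClosure ℚ)) [Normal ℚ K]
      [FiniteDimensional ℚ K],
      (∃ ζ : AlgebraicClosure ℚ, IsPrimitiveRoot ζ p ∧ ζ ∈ K) → HasUnivClassFormation K p)
    (M : Rep (ZMod p) (AlgebraicClosure ℚ ≃ₐ[ℚ] AlgebraicClosure ℚ))
    [FiniteDimensional (ZMod p) M]
    (hsm : ∀ m : M, ∃ F : IntermediateField ℚ (AlgebraicClosure ℚ), FiniteDimensional ℚ F ∧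
      ∀ s ∈ F.fixingSubgroup, M.ρ s m = m)
    (hMur : ∀ q : Nat.Primes, q ∉ S → ∀ A : ValuationSubring (AlgebraicClosure ℚ),
      A.LiesOverPrime (q : ℕ) → ∀ g ∈ A.inertiaSubgroupIn ℚ, M.ρ g = 1) :
    ∃ B : sha₁ S (M.dualTwist (cycloChar p)) →ₗ[ZMod p] sha₂ S M →ₗ[ZMod p] ZMod p,
      (∀ y, (∀ x, B y x = 0) → y = 0) ∧ (∀ x, (∀ y, B y x = 0) → x = 0) :=
  exists_pairing_of_inputs hp2 S hpS M hsm hMur (ptInputs_of_univ hp2 S hpS hform)

end Fermat.Agent.ClassField.S55
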